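import Fermat.Agent.CFT.LocalDual.Unipotent
import Fermat.Agent.CFT.Cohomology.Shapiro

/-!
# The Euler bound for coinduced modules read at a local group

`funRep M U` restricted to `G_q` is the sum over the orbits `x` of `G_q` on `Γ ⧸ U` of the modules
coinduced from the stabilisers `V_x`, on which `μ_p` is trivial and `M` is unipotent.
-/

set_option autoImplicit false
set_option linter.unusedSectionVars false

open CategoryTheory groupCohomology ExtCitation Module

noncomputable section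

namespace Fermat.Agent.CFT.LocalDual

variable {p : ℕ} [Fact p.Prime]

/-- A stable flag with trivial pieces makes every element act with `p`-power order. -/
theorem pow_eq_one_of_flag {G : Type} [Group G] {M : Rep.{0} (ZMod p) G}
    [FiniteDimensional (ZMod p) M] {U : Subgroup G}
    (hfilt : ∀ (W : Submodule (ZMod p) M), (∀ g ∈ U, ∀ w ∈ W, M.ρ g w ∈ W) → W ≠ ⊤ →
      ∃ m ∉ W, ∀ g ∈ U, M.ρ g m - m ∈ W) (u : G) (hu : u ∈ U) :
    M.ρ u ^ p ^ finrank (ZMod p) M = 1 := by
  have step : ∀ (n : ℕ) (W : Submodule (ZMod p) M), finrank (ZMod p) M ≤ finrank (ZMod p) W + n →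
      (∀ g ∈ U, ∀ w ∈ W, M.ρ g w ∈ W) →
      (∀ w ∈ W, ((M.ρ u - 1) ^ finrank (ZMod p) W) w = 0) →
      ∀ w : M, ((M.ρ u - 1) ^ finrank (ZMod p) M) w = 0 := by
    intro n
    induction n with
    | zero =>
      intro W hn _ hW w
      have htop : W = ⊤ :=
        Submodule.eq_top_of_finrank_eq (le_antisymm (Submodule.finrank_le W) hn)
      subst htop
      rw [finrank_top] at hW
      exact hW w Submodule.mem_top
    | succ n ih =>
      intro W hn hstab hW
      by_cases htop : W = ⊤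
      · subst htop
        rw [finrank_top] at hW
        exact fun w => hW w Submodule.mem_top
      obtain ⟨m, hm, hmU⟩ := hfilt W hstab htop
      have hdim : finrank (ZMod p) (W ⊔ Submodule.span (ZMod p) {m} : Submodule (ZMod p) M) =
          finrank (ZMod p) W + 1 := Submodule.finrank_sup_span_singleton hm
      refine ih (W ⊔ Submodule.span (ZMod p) {m}) (by omega) (fun g hg w hw => ?_) (fun w hw => ?_)
      · obtain ⟨a, ha, b, hb, rfl⟩ := Submodule.mem_sup.1 hw
        obtain ⟨c, rfl⟩ := Submodule.mem_span_singleton.1 hb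
        rw [map_add, map_smul, show M.ρ g m = (M.ρ g m - m) + m from (sub_add_cancel _ _).symm,
          smul_add, ← add_assoc]
        exact add_mem (Submodule.mem_sup_left (add_mem (hstab g hg a ha)
          (W.smul_mem c (hmU g hg))))
          (Submodule.smul_mem _ c (Submodule.mem_sup_right (Submodule.mem_span_singleton_self m)))
      · obtain ⟨a, ha, b, hb, rfl⟩ := Submodule.mem_sup.1 hw
        obtain ⟨c, rfl⟩ := Submodule.mem_span_singleton.1 hb
        rw [hdim, pow_succ, Module.End.mul_apply]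
        refine hW _ ?_
        rw [LinearMap.sub_apply, Module.End.one_apply, map_add, map_smul,
          show M.ρ u a + c • M.ρ u m - (a + c • m) = (M.ρ u a - a) + c • (M.ρ u m - m) by
            rw [smul_sub]; abel]
        exact add_mem (sub_mem (hstab u hu a ha) ha) (W.smul_mem c (hmU u hu))
  have hnil : (M.ρ u - 1) ^ finrank (ZMod p) M = 0 := by
    refine LinearMap.ext fun w => step (finrank (ZMod p) M) ⊥ (by simp) ?_ ?_ w
    · intro g _ w hw
      rw [Submodule.mem_bot] at hw
      rw [hw, map_zero]; exact Submodule.zero_mem _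
    · intro w hw
      rw [Submodule.mem_bot] at hw
      rw [hw, map_zero]
  obtain ⟨l, hl⟩ := Nat.exists_eq_add_of_le
    (Nat.lt_pow_self (n := finrank (ZMod p) M) (Fact.out : p.Prime).one_lt).le
  have h := congrArg (Polynomial.aeval (M.ρ u))
    (sub_pow_char_pow (R := Polynomial (ZMod p)) (p := p) (n := finrank (ZMod p) M)
      Polynomial.X 1)
  simp only [map_pow, map_sub, map_one, Polynomial.aeval_X, one_pow] at h
  rw [hl] at h ⊢
  rw [pow_add, hnil, zero_mul, eq_comm, sub_eq_zero] at h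
  exact h

/-- `dim H¹ = dim H⁰ + dim H² + d e` over a local field with `μ_p`, unipotent coefficients. -/
theorem finrank_H1c_unipotent {q : Nat.Primes} {V : Subgroup (primeLocalGaloisGroup q)}
    {N : Rep.{0} (ZMod p) V} [FiniteDimensional (ZMod p) N]
    (hp2 : p ≠ 2) (hV : IsLocLevel q V) (hμ : ∀ τ ∈ V, cycloChar p (primeLocalToGlobal q τ) = 1)
    (hN : IsPUnip N) (hsm : IsSmoothRep Levels.all (rV q V) N) :
    FiniteDimensional (ZMod p) (H1c Levels.all (rV q V) N) ∧
      finrank (ZMod p) (H1c Levels.all (rV q V) N) =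
        finrank (ZMod p) N.ρ.invariants + finrank (ZMod p) (H2c Levels.all (rV q V) N) +
          finrank (ZMod p) N * (if (q : ℕ) = p then V.index else 0) := by
  obtain ⟨hfin, hZ⟩ := finrank_Z1_eq hp2 hV hμ hN hsm
  let Φ : Z1 Levels.all (rV q V) N →ₗ[ZMod p] H1 N :=
    (H1π N).hom.comp (Z1 Levels.all (rV q V) N).subtype
  have hrange : LinearMap.range Φ = H1c Levels.all (rV q V) N := by
    rw [LinearMap.range_comp, Submodule.range_subtype]
    rfl
  have hcobmem : ∀ n : N, (d₀₁ N).hom n ∈ C1 Levels.all (rV q V) N := by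
    intro n
    obtain ⟨F, hF, h⟩ := hsm n
    exact ⟨F, hF, fun g s hs => by
      rw [d₀₁_hom_apply, d₀₁_hom_apply, map_mul, Module.End.mul_apply, h s hs]⟩
  let cob : N →ₗ[ZMod p] Z1 Levels.all (rV q V) N :=
    LinearMap.codRestrict _ (LinearMap.codRestrict (cocycles₁ N) (d₀₁ N).hom
      fun n => coboundaries₁_le_cocycles₁ N ⟨n, rfl⟩) hcobmem
  have hker : LinearMap.ker Φ = LinearMap.range cob := by
    ext z
    constructor
    · intro hz
      obtain ⟨n, hn⟩ := (H1π_eq_zero_iff _).1 (LinearMap.mem_ker.1 hz)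
      exact ⟨n, Subtype.ext (Subtype.ext hn)⟩
    · rintro ⟨n, rfl⟩
      exact LinearMap.mem_ker.2 ((H1π_eq_zero_iff _).2 ⟨n, rfl⟩)
  have hkc : LinearMap.ker cob = N.ρ.invariants := by
    ext n
    constructor
    · intro hn s
      have h : ((cob n).1 : V → N) s = 0 := by rw [LinearMap.mem_ker.1 hn]; rfl
      change (d₀₁ N).hom n s = 0 at h
      rw [d₀₁_hom_apply, sub_eq_zero] at h
      exact h
    · intro hn
      refine LinearMap.mem_ker.2 (Subtype.ext (Subtype.ext (funext fun s => ?_)))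
      change (d₀₁ N).hom n s = 0
      rw [d₀₁_hom_apply, hn s, sub_self]
  have h1 := Φ.finrank_range_add_finrank_ker
  have h2 := cob.finrank_range_add_finrank_ker
  rw [hkc] at h2
  rw [hrange, hker, hZ] at h1
  refine ⟨hrange ▸ inferInstance, ?_⟩
  rw [mul_add, mul_one] at h1
  omega

theorem H1π_eq_zero_of_coboundary {G : Type} [Group G] {A : Rep.{0} (ZMod p) G}
    (z : cocycles₁ A) (n : A) (h : ∀ g, A.ρ g n - n = z.1 g) : (H1π A).hom z = 0 :=
  (H1π_eq_zero_iff z).2 ⟨n, funext fun g => (d₀₁_hom_apply A n g).trans (h g)⟩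

/-- `H²` of a finite direct sum is the product of the `H²`. -/
theorem pushH2_pi_bijective {G : Type} [Group G] {L : Levels} {r : G →* GQ}
    {A : Rep.{0} (ZMod p) G} {ι : Type} [Fintype ι] {B : ι → Rep.{0} (ZMod p) G}
    (π : ∀ i, A →ₗ[ZMod p] B i) (hπ : ∀ i g m, π i (A.ρ g m) = (B i).ρ g (π i m))
    (σ : ∀ i, B i →ₗ[ZMod p] A) (hσ : ∀ i g m, σ i ((B i).ρ g m) = A.ρ g (σ i m))
    (hself : ∀ i m, π i (σ i m) = m) (hother : ∀ i j, i ≠ j → ∀ m, π j (σ i m) = 0)
    (hsum : ∀ a, ∑ i, σ i (π i a) = a) :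
    Function.Bijective
      (LinearMap.pi fun i => pushH2 (L := L) (r := r) (π i) (hπ i)) := by
  constructor
  · rw [injective_iff_map_eq_zero]
    intro y hy
    let e : ι → equiHom A A := fun i => ⟨(σ i).comp (π i),
      fun g m => by rw [LinearMap.comp_apply, LinearMap.comp_apply, hπ, hσ]⟩
    have he : pushLin (L := L) (r := r) y (∑ i, e i) = y := by
      rw [pushLin_apply]
      refine mapH2_id _ _ _ (fun a => ?_) y
      rw [Submodule.coe_sum, LinearMap.sum_apply]
      exact hsum a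
    rw [← he, map_sum]
    refine Finset.sum_eq_zero fun i _ => ?_
    rw [pushLin_apply, ← pushH2_pushH2 (π i) (hπ i) (σ i) (hσ i) (e i).1 (e i).2 (fun _ => rfl) y,
      show pushH2 (L := L) (r := r) (π i) (hπ i) y = 0 from congrFun hy i, map_zero]
  · intro y
    classical
    refine ⟨∑ i, pushH2 (L := L) (r := r) (σ i) (hσ i) (y i), funext fun j => ?_⟩
    change pushH2 (π j) (hπ j) (∑ i, pushH2 (σ i) (hσ i) (y i)) = y j
    rw [map_sum, Finset.sum_eq_single j (fun i _ hne => ?_)
      (fun hj => absurd (Finset.mem_univ _) hj)]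
    · rw [pushH2_pushH2 (σ j) (hσ j) (π j) (hπ j) LinearMap.id (fun _ _ => rfl) (hself j)]
      exact mapH2_id _ _ _ (fun _ => rfl) _
    · rw [pushH2_pushH2 (σ i) (hσ i) (π j) (hπ j) 0
        (fun _ _ => by rw [LinearMap.zero_apply, LinearMap.zero_apply, map_zero]) (hother i j hne)]
      exact mapH2_eq_zero _ _ _ _ (fun _ => rfl) _

section Orbits

variable {q : Nat.Primes} {U : Subgroup GQ}

local notation "rq" => primeLocalToGlobal q

/-- The orbit map of a point of `Γ ⧸ U`. -/
def orbitPt (x : GQ ⧸ U) : primeLocalGaloisGroup q ⧸ placeStab q U x → GQ ⧸ U :=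
  Quotient.lift (fun g => rq g • x) fun a b hab => by
    have h : rq (a⁻¹ * b) • x = x := QuotientGroup.leftRel_apply.1 hab
    change rq a • x = rq b • x
    conv_lhs => rw [← h]
    rw [smul_smul, ← map_mul, mul_inv_cancel_left]

lemma orbitPt_mk (x : GQ ⧸ U) (g : primeLocalGaloisGroup q) :
    orbitPt x (QuotientGroup.mk g) = rq g • x := rfl

lemma orbitPt_smul (x : GQ ⧸ U) (τ : primeLocalGaloisGroup q)
    (c : primeLocalGaloisGroup q ⧸ placeStab q U x) :
    orbitPt x (τ • c) = rq τ • orbitPt x c := by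
  induction c using QuotientGroup.induction_on with
  | _ g => rw [MulAction.Quotient.smul_mk, orbitPt_mk, orbitPt_mk, smul_eq_mul, map_mul, mul_smul]

lemma orbitPt_injective (x : GQ ⧸ U) : Function.Injective (orbitPt (q := q) x) := by
  intro a b hab
  induction a using QuotientGroup.induction_on with
  | _ a =>
    induction b using QuotientGroup.induction_on with
    | _ b =>
      rw [orbitPt_mk, orbitPt_mk] at hab
      rw [QuotientGroup.eq]
      change rq (a⁻¹ * b) • x = x
      rw [map_mul, mul_smul, ← hab, ← mul_smul, ← map_mul, inv_mul_cancel, map_one, one_smul]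

variable (q U) in
/-- A set of orbit representatives. -/
theorem exists_orbit_reps :
    ∃ R : Set (GQ ⧸ U), (∀ y, ∃ x ∈ R, ∃ c, orbitPt (q := q) x c = y) ∧
      ∀ x ∈ R, ∀ x' ∈ R, ∀ c c', orbitPt (q := q) x c = orbitPt (q := q) x' c' → x = x' := by
  let s : Setoid (GQ ⧸ U) :=
    { r := fun x y => ∃ τ : primeLocalGaloisGroup q, rq τ • x = y
      iseqv := ⟨fun x => ⟨1, by rw [map_one, one_smul]⟩,
        fun {x y} ⟨τ, h⟩ => ⟨τ⁻¹, by rw [← h, ← mul_smul, ← map_mul, inv_mul_cancel, map_one,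
          one_smul]⟩,
        fun {x y z} ⟨τ, h⟩ ⟨τ', h'⟩ => ⟨τ' * τ, by rw [map_mul, mul_smul, h, h']⟩⟩ }
  refine ⟨Set.range (Quotient.out : Quotient s → GQ ⧸ U), fun y => ?_, ?_⟩
  · obtain ⟨τ, h⟩ := (Quotient.mk_out (s := s) y : s.r _ _)
    exact ⟨_, ⟨Quotient.mk s y, rfl⟩, QuotientGroup.mk τ, h⟩
  · rintro _ ⟨a, rfl⟩ _ ⟨b, rfl⟩ c c' h
    induction c using QuotientGroup.induction_on with
    | _ g =>
      induction c' using QuotientGroup.induction_on with
      | _ g' =>
        rw [orbitPt_mk, orbitPt_mk] at h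
        have : s.r a.out b.out := ⟨g'⁻¹ * g, by
          rw [map_mul, mul_smul, h, ← mul_smul, ← map_mul, inv_mul_cancel, map_one, one_smul]⟩
        rw [← Quotient.out_eq a, ← Quotient.out_eq b, Quotient.sound this]

variable (M : Rep.{0} (ZMod p) GQ)

/-- The module seen by the local group of a place. -/
abbrev placeRep (x : GQ ⧸ U) : Rep.{0} (ZMod p) (placeStab q U x) :=
  Rep.res (placeStab q U x).subtype (Rep.res rq M)

/-- Projection of `funRep M U` to one orbit. -/
def orbitProj (x : GQ ⧸ U) :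
    Rep.res rq (funRep M U) →ₗ[ZMod p] funRep (Rep.res rq M) (placeStab q U x) where
  toFun f c := f (orbitPt x c)
  map_add' _ _ := rfl
  map_smul' _ _ := rfl

lemma orbitProj_equi (x : GQ ⧸ U) (τ : primeLocalGaloisGroup q) (f) :
    orbitProj M x ((Rep.res rq (funRep M U)).ρ τ f) =
      (funRep (Rep.res rq M) (placeStab q U x)).ρ τ (orbitProj M x f) := by
  funext c
  change M.ρ (rq τ) (f ((rq τ)⁻¹ • orbitPt x c)) = M.ρ (rq τ) (f (orbitPt x (τ⁻¹ • c)))
  rw [orbitPt_smul, map_inv]

open Classical in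
/-- Extension by zero from one orbit, as a function. -/
def orbitInclFun (x : GQ ⧸ U) (h : primeLocalGaloisGroup q ⧸ placeStab q U x → M) (y : GQ ⧸ U) :
    M :=
  if hy : ∃ c, orbitPt x c = y then h hy.choose else 0

/-- Extension by zero from one orbit. -/
def orbitIncl (x : GQ ⧸ U) :
    funRep (Rep.res rq M) (placeStab q U x) →ₗ[ZMod p] Rep.res rq (funRep M U) where
  toFun h := fun y => orbitInclFun M x h y
  map_add' a b := funext fun y => by
    change orbitInclFun M x (a + b) y = orbitInclFun M x a y + orbitInclFun M x b y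
    by_cases hy : ∃ c, orbitPt (q := q) x c = y
    · simp only [orbitInclFun, dif_pos hy]; rfl
    · simp only [orbitInclFun, dif_neg hy, add_zero]
  map_smul' t a := funext fun y => by
    change orbitInclFun M x (t • a) y = t • orbitInclFun M x a y
    by_cases hy : ∃ c, orbitPt (q := q) x c = y
    · simp only [orbitInclFun, dif_pos hy]; rfl
    · simp only [orbitInclFun, dif_neg hy, smul_zero]

lemma orbitIncl_pt (x : GQ ⧸ U) (h : funRep (Rep.res rq M) (placeStab q U x))
    (c : primeLocalGaloisGroup q ⧸ placeStab q U x) :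
    orbitIncl M x h (orbitPt x c) = h c := by
  have hy : ∃ c', orbitPt (q := q) x c' = orbitPt x c := ⟨c, rfl⟩
  change orbitInclFun M x h (orbitPt x c) = _
  rw [orbitInclFun, dif_pos hy, orbitPt_injective x hy.choose_spec]

lemma orbitIncl_off (x : GQ ⧸ U) (h : funRep (Rep.res rq M) (placeStab q U x)) {y : GQ ⧸ U}
    (hy : ¬ ∃ c, orbitPt (q := q) x c = y) : orbitIncl M x h y = (0 : M) := by
  change orbitInclFun M x h y = _
  rw [orbitInclFun, dif_neg hy]

lemma orbitIncl_equi (x : GQ ⧸ U) (τ : primeLocalGaloisGroup q) (h) :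
    orbitIncl M x ((funRep (Rep.res rq M) (placeStab q U x)).ρ τ h) =
      (Rep.res rq (funRep M U)).ρ τ (orbitIncl M x h) := by
  funext y
  change _ = M.ρ (rq τ) (orbitIncl M x h ((rq τ)⁻¹ • y))
  by_cases hy : ∃ c, orbitPt (q := q) x c = y
  · obtain ⟨c, rfl⟩ := hy
    rw [orbitIncl_pt, ← map_inv, ← orbitPt_smul, orbitIncl_pt]
    rfl
  · rw [orbitIncl_off M x _ hy, orbitIncl_off M x h, map_zero]
    rintro ⟨c, hc⟩
    exact hy ⟨τ • c, by rw [orbitPt_smul, hc, smul_inv_smul]⟩

lemma orbitProj_incl_self (x : GQ ⧸ U) (h) : orbitProj (q := q) M x (orbitIncl M x h) = h :=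
  funext fun c => orbitIncl_pt M x h c

lemma orbitProj_incl_other {R : Set (GQ ⧸ U)}
    (huniq : ∀ x ∈ R, ∀ x' ∈ R, ∀ c c', orbitPt (q := q) x c = orbitPt (q := q) x' c' → x = x')
    {x x' : GQ ⧸ U} (hx : x ∈ R) (hx' : x' ∈ R) (hne : x ≠ x') (h) :
    orbitProj (q := q) M x' (orbitIncl M x h) = 0 :=
  funext fun c => orbitIncl_off M x h fun ⟨c₀, hc₀⟩ => hne (huniq x hx x' hx' c₀ c hc₀)

lemma sum_orbitIncl_proj {R : Set (GQ ⧸ U)} [Fintype R]
    (hcov : ∀ y, ∃ x ∈ R, ∃ c, orbitPt (q := q) x c = y)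
    (huniq : ∀ x ∈ R, ∀ x' ∈ R, ∀ c c', orbitPt (q := q) x c = orbitPt (q := q) x' c' → x = x')
    (f : Rep.res rq (funRep M U)) : ∑ x : R, orbitIncl M x.1 (orbitProj M x.1 f) = f := by
  funext y
  obtain ⟨x, hx, c, rfl⟩ := hcov y
  refine (Finset.sum_apply _ _ _).trans ?_
  rw [Finset.sum_eq_single (⟨x, hx⟩ : R) (fun x' _ hne => ?_) (fun h => absurd (Finset.mem_univ _) h)]
  · exact orbitIncl_pt M x _ c
  · exact orbitIncl_off M x'.1 _ fun ⟨c', hc'⟩ =>
      hne (Subtype.ext (huniq x'.1 x'.2 x hx c' c hc'))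

/-- Restriction of a cocycle of `funRep M U` to the stabiliser of a point. -/
def orbitRes (x : GQ ⧸ U) :
    cocycles₁ (Rep.res rq (funRep M U)) →ₗ[ZMod p] cocycles₁ (placeRep (q := q) M x) where
  toFun z := ⟨fun s => z.1 s.1 x, (mem_cocycles₁_iff _).2 fun s t => by
    have h := congrFun ((mem_cocycles₁_iff z.1).1 z.2 s.1 t.1) x
    refine h.trans ?_
    change M.ρ (rq s.1) (z.1 t.1 ((rq s.1)⁻¹ • x)) + _ = _
    rw [← map_inv, show rq s.1⁻¹ • x = x from inv_mem s.2]
    rfl⟩
  map_add' _ _ := rfl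
  map_smul' _ _ := rfl

lemma H1π_eq_zero_of_orbitRes {R : Set (GQ ⧸ U)} [Fintype R]
    (hcov : ∀ y, ∃ x ∈ R, ∃ c, orbitPt (q := q) x c = y)
    (huniq : ∀ x ∈ R, ∀ x' ∈ R, ∀ c c', orbitPt (q := q) x c = orbitPt (q := q) x' c' → x = x')
    (hlev : ∀ x : GQ ⧸ U, IsLocLevel q (placeStab q U x))
    (z : cocycles₁ (Rep.res rq (funRep M U)))
    (hz : ∀ x : R, (H1π _).hom (orbitRes M x.1 z) = 0) :
    (H1π (Rep.res rq (funRep M U))).hom z = 0 := by
  have hF : ∀ x : R, ∃ f : (funRep (Rep.res rq M) (placeStab q U x.1) : Type),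
      ∀ g, orbitProj M x.1 (z.1 g) =
        (funRep (Rep.res rq M) (placeStab q U x.1)).ρ g f - f := by
    intro x
    obtain ⟨m, hm⟩ := (H1π_eq_zero_iff _).1 (hz x)
    refine shapiro₁_injective (L := Levels.all) (r := rq) Levels.hasNormal_all (hlev x.1)
      (M := Rep.res rq M) (fun g => orbitProj M x.1 (z.1 g)) (fun s t => ?_) m (fun s => ?_)
    · rw [show z.1 (s * t) = (Rep.res rq (funRep M U)).ρ s (z.1 t) + z.1 s from
        (mem_cocycles₁_iff z.1).1 z.2 s t, map_add, orbitProj_equi]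
    · have h := congrFun hm s
      rw [d₀₁_hom_apply] at h
      refine Eq.trans ?_ h.symm
      change z.1 s.1 (orbitPt x.1 (QuotientGroup.mk 1)) = z.1 s.1 x.1
      rw [orbitPt_mk, map_one, one_smul]
  choose f hf using hF
  refine H1π_eq_zero_of_coboundary z (∑ x : R, orbitIncl (q := q) M x.1 (f x)) fun g => ?_
  rw [map_sum, ← Finset.sum_sub_distrib]
  refine Eq.trans (Finset.sum_congr rfl fun x _ => ?_) (sum_orbitIncl_proj M hcov huniq (z.1 g))
  rw [hf, map_sub, orbitIncl_equi]

lemma finrank_H1c_le_sum {R : Set (GQ ⧸ U)} [Fintype R]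
    (hcov : ∀ y, ∃ x ∈ R, ∃ c, orbitPt (q := q) x c = y)
    (huniq : ∀ x ∈ R, ∀ x' ∈ R, ∀ c c', orbitPt (q := q) x c = orbitPt (q := q) x' c' → x = x')
    (hlev : ∀ x : GQ ⧸ U, IsLocLevel q (placeStab q U x))
    [hfd : ∀ x : R, FiniteDimensional (ZMod p)
      (H1c Levels.all (rV q (placeStab q U x.1)) (placeRep (q := q) M x.1))] :
    finrank (ZMod p) (H1c Levels.all rq (Rep.res rq (funRep M U))) ≤
      ∑ x : R, finrank (ZMod p) (H1c Levels.all (rV q (placeStab q U x.1))
        (placeRep (q := q) M x.1)) := by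
  let res₁ : ∀ x : R, Z1 Levels.all rq (Rep.res rq (funRep M U)) →ₗ[ZMod p]
      H1c Levels.all (rV q (placeStab q U x.1)) (placeRep (q := q) M x.1) := fun x =>
    LinearMap.codRestrict _
      (((H1π _).hom.comp (orbitRes M x.1)).comp (Z1 Levels.all rq _).subtype) fun z => by
      refine ⟨_, ?_, rfl⟩
      obtain ⟨L', hL', h⟩ := z.2
      exact ⟨L', hL', fun g s hs => congrFun (h g.1 s.1 hs) x.1⟩
  let Θ := LinearMap.pi res₁
  let Φ := (H1π (Rep.res rq (funRep M U))).hom.comp (Z1 Levels.all rq _).subtype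
  have hΘ : LinearMap.ker Θ ≤ LinearMap.ker Φ := fun z hz => LinearMap.mem_ker.2 <|
    H1π_eq_zero_of_orbitRes M hcov huniq hlev z.1 fun x =>
      congrArg Subtype.val (congrFun (LinearMap.mem_ker.1 hz) x)
  have hrange : LinearMap.range Φ = H1c Levels.all rq (Rep.res rq (funRep M U)) := by
    rw [LinearMap.range_comp, Submodule.range_subtype]
    rfl
  let l := (LinearMap.ker Θ).liftQ Φ hΘ
  have : FiniteDimensional (ZMod p)
      (Z1 Levels.all rq (Rep.res rq (funRep M U)) ⧸ LinearMap.ker Θ) :=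
    Θ.quotKerEquivRange.symm.finiteDimensional
  rw [← hrange, ← Submodule.range_liftQ (LinearMap.ker Θ) Φ hΘ, ← Module.finrank_pi_fintype]
  refine (LinearMap.finrank_range_le l).trans ?_
  rw [Θ.quotKerEquivRange.finrank_eq]
  exact Submodule.finrank_le _

lemma finrank_invariants_funRep {R : Set (GQ ⧸ U)} [Fintype R] [FiniteDimensional (ZMod p) M]
    (hcov : ∀ y, ∃ x ∈ R, ∃ c, orbitPt (q := q) x c = y)
    (huniq : ∀ x ∈ R, ∀ x' ∈ R, ∀ c c', orbitPt (q := q) x c = orbitPt (q := q) x' c' → x = x') :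
    finrank (ZMod p) (Rep.res rq (funRep M U)).ρ.invariants =
      ∑ x : R, finrank (ZMod p) (placeRep (q := q) M x.1).ρ.invariants := by
  classical
  let ev : (Rep.res rq (funRep M U)).ρ.invariants →ₗ[ZMod p] ∀ x : R, (placeRep (q := q) M x.1).ρ.invariants :=
    { toFun := fun f x => ⟨f.1 x.1, fun s => by
        have h := congrFun (f.2 s.1) x.1
        change M.ρ (rq s.1) (f.1 ((rq s.1)⁻¹ • x.1)) = f.1 x.1 at h
        rwa [← map_inv, show rq s.1⁻¹ • x.1 = x.1 from inv_mem s.2] at h⟩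
      map_add' := fun _ _ => rfl
      map_smul' := fun _ _ => rfl }
  have hbij : Function.Bijective ev := by
    constructor
    · intro a b hab
      refine Subtype.ext (funext fun y => ?_)
      obtain ⟨x, hx, c, rfl⟩ := hcov y
      induction c using QuotientGroup.induction_on with
      | _ g =>
        have hval : ∀ f : (Rep.res rq (funRep M U)).ρ.invariants, f.1 (orbitPt x (QuotientGroup.mk g)) =
            M.ρ (rq g) (f.1 x) := fun f => by
          have h := congrFun (f.2 g) (rq g • x)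
          change M.ρ (rq g) (f.1 ((rq g)⁻¹ • rq g • x)) = f.1 (rq g • x) at h
          rw [inv_smul_smul] at h
          exact h.symm
        rw [hval, hval]
        exact congrArg _ (congrArg Subtype.val (congrFun hab ⟨x, hx⟩))
    · intro m
      let h : ∀ x : R, (funRep (Rep.res rq M) (placeStab q U x.1) : Type) := fun x =>
        Quotient.lift (fun g => M.ρ (rq g) (m x).1) fun a b hab => by
          have hab' : a⁻¹ * b ∈ placeStab q U x.1 := QuotientGroup.leftRel_apply.1 hab
          have hfix : M.ρ (rq (a⁻¹ * b)) (m x).1 = (m x).1 := (m x).2 ⟨_, hab'⟩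
          change M.ρ (rq a) _ = M.ρ (rq b) _
          conv_lhs => rw [← hfix, ← Module.End.mul_apply, ← map_mul, ← map_mul,
            mul_inv_cancel_left]
      have hinv : ∀ x : R, ∀ τ, (funRep (Rep.res rq M) (placeStab q U x.1)).ρ τ (h x) = h x := by
        intro x τ
        funext c
        induction c using QuotientGroup.induction_on with
        | _ g =>
          change M.ρ (rq τ) (h x (τ⁻¹ • QuotientGroup.mk g)) = _
          rw [MulAction.Quotient.smul_mk, smul_eq_mul]
          change M.ρ (rq τ) (M.ρ (rq (τ⁻¹ * g)) (m x).1) = M.ρ (rq g) (m x).1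
          rw [← Module.End.mul_apply, ← map_mul, ← map_mul, mul_inv_cancel_left]
      refine ⟨⟨∑ x : R, orbitIncl (q := q) M x.1 (h x), fun τ => ?_⟩, funext fun x => Subtype.ext ?_⟩
      · rw [map_sum]
        exact Finset.sum_congr rfl fun x _ => by rw [← orbitIncl_equi, hinv]
      · change (∑ x' : R, orbitIncl (q := q) M x'.1 (h x') : GQ ⧸ U → M) x.1 = _
        have hxpt : x.1 = orbitPt (q := q) x.1 (QuotientGroup.mk 1) := by
          rw [orbitPt_mk, map_one, one_smul]
        refine (Finset.sum_apply _ _ _).trans ?_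
        rw [Finset.sum_eq_single x (fun x' _ hne => ?_)
          (fun hx => absurd (Finset.mem_univ _) hx)]
        · refine (congrArg (orbitIncl (q := q) M x.1 (h x) : GQ ⧸ U → M) hxpt).trans ?_
          refine (orbitIncl_pt M x.1 (h x) _).trans ?_
          change M.ρ (rq 1) (m x).1 = _
          rw [map_one, map_one]
          rfl
        · refine orbitIncl_off M x'.1 _ fun ⟨c', hc'⟩ => hne (Subtype.ext ?_)
          exact huniq x'.1 x'.2 x.1 x.2 c' (QuotientGroup.mk 1) (hc'.trans hxpt)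
  rw [(LinearEquiv.ofBijective ev hbij).finrank_eq, Module.finrank_pi_fintype]

lemma finrank_H2c_funRep {R : Set (GQ ⧸ U)} [Fintype R]
    (hcov : ∀ y, ∃ x ∈ R, ∃ c, orbitPt (q := q) x c = y)
    (huniq : ∀ x ∈ R, ∀ x' ∈ R, ∀ c c', orbitPt (q := q) x c = orbitPt (q := q) x' c' → x = x')
    (hlev : ∀ x : GQ ⧸ U, IsLocLevel q (placeStab q U x))
    (hresM : IsSmoothRep Levels.all rq (Rep.res rq M))
    [hfd : ∀ x : R, FiniteDimensional (ZMod p)
      (H2c Levels.all (rV q (placeStab q U x.1)) (placeRep (q := q) M x.1))] :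
    finrank (ZMod p) (H2c Levels.all rq (Rep.res rq (funRep M U))) =
      ∑ x : R, finrank (ZMod p) (H2c Levels.all (rV q (placeStab q U x.1))
        (placeRep (q := q) M x.1)) := by
  classical
  let P := LinearMap.pi fun x : R =>
    pushH2 (L := Levels.all) (r := rq) (orbitProj (q := q) M x.1) (orbitProj_equi M x.1)
  have hP : Function.Bijective P :=
    pushH2_pi_bijective (L := Levels.all) (r := rq) (ι := R)
      (B := fun x => funRep (Rep.res rq M) (placeStab q U x.1))
      (fun x => orbitProj (q := q) M x.1) (fun x => orbitProj_equi M x.1)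
      (fun x => orbitIncl (q := q) M x.1) (fun x => orbitIncl_equi M x.1)
      (fun x m => orbitProj_incl_self M x.1 m)
      (fun x x' hne m => orbitProj_incl_other M huniq x.2 x'.2 (fun h => hne (Subtype.ext h)) m)
      (fun f => sum_orbitIncl_proj M hcov huniq f)
  let S : ∀ x : R, H2c Levels.all rq (funRep (Rep.res rq M) (placeStab q U x.1)) →ₗ[ZMod p]
      H2c Levels.all (rV q (placeStab q U x.1)) (placeRep (q := q) M x.1) :=
    fun x => shapiro₂ (L := Levels.all) (r := rq) _ (Rep.res rq M)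
  have hS : Function.Bijective
      (LinearMap.pi fun x => (S x).comp (LinearMap.proj x)) :=
    Function.Bijective.piMap fun x => shapiro₂_bijective Levels.hasNormal_all (hlev _) hresM
  have := fun x : R => Module.Free.of_divisionRing (ZMod p)
    (H2c Levels.all (rV q (placeStab q U x.1)) (placeRep (q := q) M x.1))
  rw [(LinearEquiv.ofBijective P hP).finrank_eq,
    (LinearEquiv.ofBijective _ hS).finrank_eq, Module.finrank_pi_fintype]

lemma sum_orbit_index {R : Set (GQ ⧸ U)} [Fintype R] [Finite (GQ ⧸ U)]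
    (hcov : ∀ y, ∃ x ∈ R, ∃ c, orbitPt (q := q) x c = y)
    (huniq : ∀ x ∈ R, ∀ x' ∈ R, ∀ c c', orbitPt (q := q) x c = orbitPt (q := q) x' c' → x = x') :
    ∑ x : R, (placeStab q U x.1).index = U.index := by
  have : ∀ x : R, Finite (primeLocalGaloisGroup q ⧸ placeStab q U x.1) :=
    fun x => Finite.of_injective _ (orbitPt_injective x.1)
  let e : (Σ x : R, primeLocalGaloisGroup q ⧸ placeStab q U x.1) ≃ GQ ⧸ U :=
    Equiv.ofBijective (fun c => orbitPt c.1.1 c.2)
      ⟨fun a b hab => by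
        obtain ⟨x, c⟩ := a
        obtain ⟨x', c'⟩ := b
        obtain rfl : x = x' := Subtype.ext (huniq x.1 x.2 x'.1 x'.2 c c' hab)
        exact congrArg _ (orbitPt_injective x.1 hab),
      fun y => by
        obtain ⟨x, hx, c, hc⟩ := hcov y
        exact ⟨⟨⟨x, hx⟩, c⟩, hc⟩⟩
  change ∑ x : R, Nat.card _ = Nat.card _
  rw [← Nat.card_congr e, Nat.card_sigma]

/-- `dim H¹ ≤ dim H⁰ + dim H² + d [Γ : U] [q = p]` for `funRep M U` at `q`. -/
theorem finrank_H1c_funRep_bound (hp2 : p ≠ 2)
    (hU : IsLevelSubgroup Levels.all (MonoidHom.id GQ) U) (hμ : ∀ g ∈ U, cycloChar p g = 1)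
    [FiniteDimensional (ZMod p) M]
    (hsm : IsSmoothRep Levels.all (MonoidHom.id GQ) M)
    (hfilt : ∀ (W : Submodule (ZMod p) M), (∀ g ∈ U, ∀ w ∈ W, M.ρ g w ∈ W) → W ≠ ⊤ →
      ∃ m ∉ W, ∀ g ∈ U, M.ρ g m - m ∈ W) :
    finrank (ZMod p) (H1c Levels.all rq (Rep.res rq (funRep M U))) ≤
      finrank (ZMod p) (Rep.res rq (funRep M U)).ρ.invariants +
        finrank (ZMod p) (H2c Levels.all rq (Rep.res rq (funRep M U))) +
        (if (q : ℕ) = p then U.index * finrank (ZMod p) M else 0) := by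
  classical
  obtain ⟨R, hcov, huniq⟩ := exists_orbit_reps q U
  have : Finite (GQ ⧸ U) := hU.finite_quotient
  have := Fintype.ofFinite R
  -- the local groups
  have hVlev : ∀ x : GQ ⧸ U, IsLocLevel q (placeStab q U x) := by
    intro x
    obtain ⟨FU, hFU, hU'⟩ := hU
    obtain ⟨F', hF', hN, hle⟩ := Levels.hasNormal_all FU hFU
    refine ⟨F', hF', fun s hs => ?_⟩
    obtain ⟨g, rfl⟩ := QuotientGroup.mk_surjective x
    change rq s • (QuotientGroup.mk g : GQ ⧸ U) = QuotientGroup.mk g
    rw [MulAction.Quotient.smul_mk, QuotientGroup.eq, smul_eq_mul, mul_inv_rev]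
    exact hU' _ (level_antitone hle (conj_mem_level (r := MonoidHom.id GQ) hN
      (s := (rq s)⁻¹) (inv_mem hs) g))
  have hVμ : ∀ x : GQ ⧸ U, ∀ τ ∈ placeStab q U x, cycloChar p (rq τ) = 1 := by
    intro x τ hτ
    have h := hμ _ (placeStab_conj_mem ⟨τ, hτ⟩)
    rw [map_mul, map_mul, map_inv, mul_comm _ (cycloChar p (rq τ)), mul_assoc,
      inv_mul_cancel, mul_one] at h
    exact h
  have hVuni : ∀ x : GQ ⧸ U, IsPUnip (placeRep (q := q) M x) := by
    intro x τ
    refine ⟨finrank (ZMod p) M, ?_⟩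
    have hu := pow_eq_one_of_flag hfilt _ (placeStab_conj_mem τ)
    rw [← map_pow] at hu
    change M.ρ (rq τ.1) ^ _ = 1
    set o : GQ := (Quotient.out x : GQ)
    rw [← map_pow, show rq τ.1 ^ p ^ finrank (ZMod p) M =
      o * (o⁻¹ * rq τ.1 * o) ^ p ^ finrank (ZMod p) M * o⁻¹ by
        rw [show o⁻¹ * rq τ.1 * o = o⁻¹ * rq τ.1 * (o⁻¹)⁻¹ by rw [inv_inv], conj_pow]; group,
      map_mul, map_mul, hu, mul_one, ← map_mul, mul_inv_cancel, map_one]
  have hresM : IsSmoothRep Levels.all rq (Rep.res rq M) :=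
    isSmoothRep_res hsm rq (isLevelHom_of_eq _ fun _ => rfl)
  have hVsm : ∀ x : GQ ⧸ U, IsSmoothRep Levels.all (rV q (placeStab q U x)) (placeRep (q := q) M x) :=
    fun x => isSmoothRep_res hresM _ (isLevelHom_of_eq _ fun _ => rfl)
  have hloc : ∀ x : R, FiniteDimensional (ZMod p)
      (H1c Levels.all (rV q (placeStab q U x.1)) (placeRep (q := q) M x.1)) ∧
      finrank (ZMod p) (H1c Levels.all (rV q (placeStab q U x.1)) (placeRep (q := q) M x.1)) =
        finrank (ZMod p) (placeRep (q := q) M x.1).ρ.invariants +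
          finrank (ZMod p) (H2c Levels.all (rV q (placeStab q U x.1)) (placeRep (q := q) M x.1)) +
          finrank (ZMod p) M * (if (q : ℕ) = p then (placeStab q U x.1).index else 0) :=
    fun x => finrank_H1c_unipotent hp2 (hVlev _) (hVμ _) (hVuni _) (hVsm _)
  have := fun x : R => (hloc x).1
  have := fun x : R => finite_H2c (hVlev x.1) (hVμ x.1) (hVuni x.1) (hVsm x.1)
  have hidx := sum_orbit_index (q := q) hcov huniq
  refine (finrank_H1c_le_sum M hcov huniq hVlev).trans (le_of_eq ?_)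
  rw [Finset.sum_congr rfl fun x _ => (hloc x).2, Finset.sum_add_distrib, Finset.sum_add_distrib,
    finrank_invariants_funRep M hcov huniq, finrank_H2c_funRep M hcov huniq hVlev hresM,
    ← Finset.mul_sum]
  congr 1
  split_ifs
  · rw [hidx, mul_comm]
  · simp

end Orbits

end Fermat.Agent.CFT.LocalDual
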