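import Fermat.Agent.CFT.Setup

/-!
# Local duality: bookkeeping lemmas for `mapH2` and equivariant functionals
-/

set_option autoImplicit false

open CategoryTheory groupCohomology

noncomputable section

namespace Fermat.Agent.CFT.LocalDual

variable {k : Type} [CommRing k] {G H K : Type} [Group G] [Group H] [Group K]
  {L L' L'' : Levels} {r : G →* GQ} {r' : H →* GQ} {r'' : K →* GQ}
  {M : Rep.{0} k G} {N : Rep.{0} k H} {P : Rep.{0} k K}

lemma mapH2_mk (f : H →* G) (hf : IsLevelHom L r L' r' f) (φ : M →ₗ[k] N)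
    (hφ : ∀ h m, φ (M.ρ (f h) m) = N.ρ h (φ m)) (c : ↥(Z2 L r M)) :
    mapH2 f hf φ hφ (H2cπ L r M c) = H2cπ L' r' N (mapZ2 f hf φ hφ c) := rfl

lemma H2cπ_eq_zero_iff (c : ↥(Z2 L r M)) :
    H2cπ L r M c = 0 ↔ ∃ z : G → M, IsConst₁ L r z ∧
      ∀ s t, (c.1 (s, t)) = M.ρ s (z t) - z (s * t) + z s := by
  rw [H2cπ, Submodule.mkQ_apply, Submodule.Quotient.mk_eq_zero, Submodule.mem_comap,
    Submodule.subtype_apply]
  constructor
  · rintro ⟨z, hz, e⟩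
    exact ⟨z, hz, fun s t => by rw [← e, d₁₂_hom_apply]⟩
  · rintro ⟨z, hz, e⟩
    exact ⟨z, hz, funext fun g => by rw [d₁₂_hom_apply]; exact (e g.1 g.2).symm⟩

lemma H2cπ_eq_iff (c c' : ↥(Z2 L r M)) :
    H2cπ L r M c = H2cπ L r M c' ↔ ∃ z : G → M, IsConst₁ L r z ∧
      ∀ s t, (c.1 (s, t)) = c'.1 (s, t) + (M.ρ s (z t) - z (s * t) + z s) := by
  rw [← sub_eq_zero, ← map_sub, H2cπ_eq_zero_iff]
  constructor <;> rintro ⟨z, hz, e⟩ <;> refine ⟨z, hz, fun s t => ?_⟩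
  · rw [← e s t]; simp
  · simp [e s t]

lemma mapH2_mapH2 (f : H →* G) (hf : IsLevelHom L r L' r' f) (φ : M →ₗ[k] N)
    (hφ : ∀ h m, φ (M.ρ (f h) m) = N.ρ h (φ m))
    (g : K →* H) (hg : IsLevelHom L' r' L'' r'' g) (ψ : N →ₗ[k] P)
    (hψ : ∀ h m, ψ (N.ρ (g h) m) = P.ρ h (ψ m))
    (e : K →* G) (he : IsLevelHom L r L'' r'' e) (χ : M →ₗ[k] P)
    (hχ : ∀ h m, χ (M.ρ (e h) m) = P.ρ h (χ m))
    (heq : ∀ x, f (g x) = e x) (hc : ∀ m, ψ (φ m) = χ m) (x : H2c L r M) :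
    mapH2 g hg ψ hψ (mapH2 f hf φ hφ x) = mapH2 e he χ hχ x := by
  obtain ⟨c, rfl⟩ := Submodule.mkQ_surjective _ x
  exact congrArg (H2cπ L'' r'' P) (Subtype.ext (funext fun x => by
    change ψ (φ (c.1 (f (g x.1), f (g x.2)))) = χ (c.1 (e x.1, e x.2))
    rw [heq, heq, hc]))

lemma mapH2_congr (f : H →* G) (hf hf' : IsLevelHom L r L' r' f) (φ φ' : M →ₗ[k] N)
    (hφ : ∀ h m, φ (M.ρ (f h) m) = N.ρ h (φ m)) (hφ' : ∀ h m, φ' (M.ρ (f h) m) = N.ρ h (φ' m))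
    (h : ∀ m, φ m = φ' m) (x : H2c L r M) : mapH2 f hf φ hφ x = mapH2 f hf' φ' hφ' x := by
  obtain ⟨c, rfl⟩ := Submodule.mkQ_surjective _ x
  exact congrArg (H2cπ L' r' N) (Subtype.ext (funext fun x => h _))

lemma mapH2_eq_zero (f : H →* G) (hf : IsLevelHom L r L' r' f) (φ : M →ₗ[k] N)
    (hφ : ∀ h m, φ (M.ρ (f h) m) = N.ρ h (φ m)) (h : ∀ m, φ m = 0) (x : H2c L r M) :
    mapH2 f hf φ hφ x = 0 := by
  obtain ⟨c, rfl⟩ := Submodule.mkQ_surjective _ x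
  rw [mapH2_mk, show mapZ2 f hf φ hφ c = 0 from Subtype.ext (funext fun x => h _), map_zero]

lemma mapH2_id (φ : M →ₗ[k] M) (hf : IsLevelHom L r L r (MonoidHom.id G))
    (hφ : ∀ g m, φ (M.ρ g m) = M.ρ g (φ m)) (h : ∀ m, φ m = m) (x : H2c L r M) :
    mapH2 (MonoidHom.id G) hf φ hφ x = x := by
  obtain ⟨c, rfl⟩ := Submodule.mkQ_surjective _ x
  exact congrArg (H2cπ L r M) (Subtype.ext (funext fun x => h _))

section Linear

variable (M N : Rep.{0} k G)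

/-- Equivariant linear maps. -/
def equiHom : Submodule k (M →ₗ[k] N) where
  carrier := {f | ∀ g m, f (M.ρ g m) = N.ρ g (f m)}
  add_mem' {a b} ha hb g m := by simp [ha g m, hb g m]
  zero_mem' g m := by simp
  smul_mem' c a ha g m := by simp [ha g m]

variable {M N}

/-- Pushing a class forward, linearly in the equivariant map. -/
def pushLin (x : H2c L r M) : equiHom M N →ₗ[k] H2c L r N where
  toFun f := pushH2 f.1 f.2 x
  map_add' a b := by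
    obtain ⟨c, rfl⟩ := Submodule.mkQ_surjective _ x
    have e : mapZ2 (N := N) (MonoidHom.id G) (isLevelHom_of_eq (L := L) (r := r) (r' := r) _ fun _ => rfl)
        (a + b).1 (a + b).2 c =
        mapZ2 (N := N) (MonoidHom.id G) (isLevelHom_of_eq (L := L) (r := r) (r' := r) _ fun _ => rfl) a.1 a.2 c +
        mapZ2 (N := N) (MonoidHom.id G) (isLevelHom_of_eq (L := L) (r := r) (r' := r) _ fun _ => rfl) b.1 b.2 c :=
      Subtype.ext (funext fun _ => rfl)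
    exact (congrArg (H2cπ L r N) e).trans (map_add (H2cπ L r N) _ _)
  map_smul' t a := by
    obtain ⟨c, rfl⟩ := Submodule.mkQ_surjective _ x
    have e : mapZ2 (N := N) (MonoidHom.id G) (isLevelHom_of_eq (L := L) (r := r) (r' := r) _ fun _ => rfl)
        (t • a).1 (t • a).2 c =
        t • mapZ2 (N := N) (MonoidHom.id G) (isLevelHom_of_eq (L := L) (r := r) (r' := r) _ fun _ => rfl) a.1 a.2 c :=
      Subtype.ext (funext fun _ => rfl)
    exact (congrArg (H2cπ L r N) e).trans (map_smul (H2cπ L r N) t _)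

/-- Pushing forward as a bilinear map. -/
def pushBil : H2c L r M →ₗ[k] equiHom M N →ₗ[k] H2c L r N where
  toFun := pushLin
  map_add' x y := LinearMap.ext fun f => map_add (pushH2 f.1 f.2) x y
  map_smul' t x := LinearMap.ext fun f => map_smul (pushH2 f.1 f.2) t x

lemma pushLin_apply (x : H2c L r M) (f : equiHom M N) : pushLin x f = pushH2 f.1 f.2 x := rfl

end Linear

/-- Restriction of a smooth module is smooth. -/
lemma isSmoothRep_res {M : Rep.{0} k G} (hM : IsSmoothRep L r M) (f : H →* G)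
    (hf : IsLevelHom L r L' r' f) : IsSmoothRep L' r' (Rep.res f M) := fun m => by
  obtain ⟨F, hF, h⟩ := hM m
  obtain ⟨F', hF', h'⟩ := hf F hF
  exact ⟨F', hF', fun s hs => h (f s) (h' s hs)⟩

lemma isLevelHom_subtype (r : G →* GQ) (V : Subgroup G) :
    IsLevelHom L r L (r.comp V.subtype) V.subtype := isLevelHom_of_eq _ fun _ => rfl

/-- A finite-dimensional smooth module is fixed by a level. -/
lemma exists_level_fix {p : ℕ} [Fact p.Prime] {M : Rep.{0} (ZMod p) G}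
    [FiniteDimensional (ZMod p) M] (hM : IsSmoothRep L r M) :
    ∃ F, L.ok F ∧ ∀ s, r s ∈ F.fixingSubgroup → ∀ m : M, M.ρ s m = m := by
  classical
  let b := Module.finBasis (ZMod p) M
  choose F hF hFfix using fun i => hM (b i)
  have key : ∀ t : Finset (Fin (Module.finrank (ZMod p) M)), ∃ F', L.ok F' ∧
      ∀ i ∈ t, F i ≤ F' := by
    intro t
    induction t using Finset.induction_on with
    | empty => exact ⟨⊥, L.bot, fun i hi => absurd hi (Finset.notMem_empty i)⟩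
    | @insert i t hi ih =>
      obtain ⟨F', hF', h⟩ := ih
      refine ⟨F i ⊔ F', L.sup _ _ (hF i) hF', fun j hj => ?_⟩
      rcases Finset.mem_insert.1 hj with rfl | hj
      · exact le_sup_left
      · exact (h j hj).trans le_sup_right
  obtain ⟨F', hF', h⟩ := key Finset.univ
  refine ⟨F', hF', fun s hs m => ?_⟩
  have : M.ρ s = LinearMap.id :=
    b.ext fun i => hFfix i s (IntermediateField.fixingSubgroup_antitone (h i (Finset.mem_univ i)) hs)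
  rw [this, LinearMap.id_apply]

lemma pushH2_pushH2 {A B C : Rep.{0} k G} (φ : A →ₗ[k] B) (hφ : ∀ g a, φ (A.ρ g a) = B.ρ g (φ a))
    (ψ : B →ₗ[k] C) (hψ : ∀ g b, ψ (B.ρ g b) = C.ρ g (ψ b))
    (χ : A →ₗ[k] C) (hχ : ∀ g a, χ (A.ρ g a) = C.ρ g (χ a)) (hc : ∀ a, ψ (φ a) = χ a)
    (x : H2c L r A) : pushH2 ψ hψ (pushH2 φ hφ x) = pushH2 χ hχ x :=
  mapH2_mapH2 _ _ φ hφ _ _ ψ hψ _ _ χ hχ (fun _ => rfl) hc x

lemma mapH2_pushH2 {A B : Rep.{0} k G} (φ : A →ₗ[k] B) (hφ : ∀ g a, φ (A.ρ g a) = B.ρ g (φ a))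
    (f : H →* G) (hf : IsLevelHom L r L' r' f) (ψ : B →ₗ[k] N)
    (hψ : ∀ h b, ψ (B.ρ (f h) b) = N.ρ h (ψ b)) (χ : A →ₗ[k] N)
    (hχ : ∀ h a, χ (A.ρ (f h) a) = N.ρ h (χ a)) (hc : ∀ a, ψ (φ a) = χ a) (x : H2c L r A) :
    mapH2 f hf ψ hψ (pushH2 φ hφ x) = mapH2 f hf χ hχ x :=
  mapH2_mapH2 _ _ φ hφ f hf ψ hψ f hf χ hχ (fun _ => rfl) hc x

lemma pushH2_mapH2 (f : H →* G) (hf : IsLevelHom L r L' r' f) (φ : M →ₗ[k] N)
    (hφ : ∀ h m, φ (M.ρ (f h) m) = N.ρ h (φ m)) {B : Rep.{0} k H} (ψ : N →ₗ[k] B)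
    (hψ : ∀ h b, ψ (N.ρ h b) = B.ρ h (ψ b)) (χ : M →ₗ[k] B)
    (hχ : ∀ h m, χ (M.ρ (f h) m) = B.ρ h (χ m)) (hc : ∀ m, ψ (φ m) = χ m) (x : H2c L r M) :
    pushH2 ψ hψ (mapH2 f hf φ hφ x) = mapH2 f hf χ hχ x :=
  mapH2_mapH2 f hf φ hφ _ _ ψ hψ f hf χ hχ (fun _ => rfl) hc x

end Fermat.Agent.CFT.LocalDual
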