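import Fermat.Agent.CFT.LocalDual.Unipotent

/-!
# Local duality for all finite modules

Descent from a Sylow level: classes in `H²(G_q, M)` are detected by equivariant maps `M → μ_p`;
`thetaLoc` is bijective, the pairing on `H¹` is non-degenerate, `H¹` and `H²` are finite.
-/

set_option autoImplicit false
set_option linter.unusedSectionVars false

open CategoryTheory groupCohomology ExtCitation Module

noncomputable section

namespace Fermat.Agent.CFT.LocalDual

variable {p : ℕ} [Fact p.Prime]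

local notation "rq" => primeLocalToGlobal
local notation "LA" => Levels.all

lemma muLoc_ρ (q : Nat.Primes) (g : primeLocalGaloisGroup q) (m : ZMod p) :
    ((muLoc p q).ρ g m : ZMod p) = (cycloChar p (rq q g) : ZMod p) * m := muRep_apply _ _ _

lemma muLoc_smooth (q : Nat.Primes) : IsSmoothRep LA (rq q) (muLoc p q) := fun m => by
  obtain ⟨F, hF, h⟩ := exists_level_cycloChar p
  exact ⟨F, hF, fun s hs => by
    change ((muLoc p q).ρ s m : ZMod p) = m
    rw [muLoc_ρ, h _ hs, Units.val_one, one_mul]⟩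

lemma invLoc_injective (hp2 : p ≠ 2) (q : Nat.Primes)
    (x : H2c LA (rq q) (muLoc p q)) (h : invLoc p q x = 0) : x = 0 :=
  (invLoc_bijective hp2 q).1 (h.trans (map_zero _).symm)

lemma shapiro₂_pushH2 {q : Nat.Primes} {U : Subgroup (primeLocalGaloisGroup q)}
    {M B : Rep.{0} (ZMod p) (primeLocalGaloisGroup q)} (φ : B →ₗ[ZMod p] funRep M U)
    (hφ : ∀ g b, φ (B.ρ g b) = (funRep M U).ρ g (φ b)) (χ : B →ₗ[ZMod p] Rep.res U.subtype M)
    (hχ : ∀ (h : U) b, χ (B.ρ (U.subtype h) b) = (Rep.res U.subtype M).ρ h (χ b))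
    (hc : ∀ b, φ b (QuotientGroup.mk 1) = χ b) (x : H2c LA (rq q) B) :
    shapiro₂ (L := LA) (r := rq q) U M (pushH2 φ hφ x) =
      mapH2 U.subtype (isLevelHom_subtype _ U) χ hχ x :=
  mapH2_pushH2 φ hφ U.subtype _ _ _ χ hχ hc x

variable {q : Nat.Primes} {M : Rep.{0} (ZMod p) (primeLocalGaloisGroup q)}

/-- A level subgroup of index prime to `p`, acting through a `p`-group, fixing `μ_p`. -/
theorem exists_sylow_level [FiniteDimensional (ZMod p) M] (hM : IsSmoothRep LA (rq q) M) :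
    ∃ U : Subgroup (primeLocalGaloisGroup q), IsLocLevel q U ∧ U.FiniteIndex ∧
      ¬ p ∣ U.index ∧ (∀ τ ∈ U, cycloChar p (rq q τ) = 1) ∧
      IsPUnip (Rep.res U.subtype M) := by
  classical
  have : Finite M := Module.finite_of_finite (ZMod p)
  have : Finite (Module.End (ZMod p) M) :=
    Finite.of_injective (fun f => (f : M → M)) DFunLike.coe_injective
  let Φ : primeLocalGaloisGroup q →* (Module.End (ZMod p) M)ˣ × (ZMod p)ˣ :=
    M.ρ.asGroupHom.prod ((cycloChar p).comp (rq q))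
  let P : Sylow p Φ.range := default
  let U : Subgroup (primeLocalGaloisGroup q) := (P : Subgroup Φ.range).comap Φ.rangeRestrict
  obtain ⟨F₁, hF₁, hfix⟩ := exists_level_fix hM
  obtain ⟨F₂, hF₂, hcyc⟩ := exists_level_cycloChar p
  have hU : IsLocLevel q U := by
    refine ⟨F₁ ⊔ F₂, (Levels.all).sup _ _ hF₁ hF₂, fun s hs => ?_⟩
    have : Φ.rangeRestrict s = 1 := Subtype.ext (Prod.ext
      (Units.ext (LinearMap.ext fun m =>
        hfix s (IntermediateField.fixingSubgroup_antitone le_sup_left hs) m))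
      (hcyc _ (IntermediateField.fixingSubgroup_antitone le_sup_right hs)))
    change Φ.rangeRestrict s ∈ (P : Subgroup Φ.range)
    rw [this]; exact one_mem _
  have hidx : U.index = (P : Subgroup Φ.range).index :=
    Subgroup.index_comap_of_surjective _ Φ.rangeRestrict_surjective
  refine ⟨U, hU, finiteIndex_of_isLocLevel hU, hidx ▸ P.not_dvd_index, fun τ hτ => ?_, fun u => ?_⟩
  · obtain ⟨k, hk⟩ := P.2 ⟨Φ.rangeRestrict τ, hτ⟩
    have h1 : (cycloChar p (rq q τ)) ^ p ^ k = 1 :=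
      congrArg (fun x : (P : Subgroup Φ.range) => (x.1.1).2) hk
    have h2 : (cycloChar p (rq q τ)) ^ (p - 1) = 1 := ZMod.units_pow_card_sub_one_eq_one p _
    have h3 : Nat.Coprime (p ^ k) (p - 1) := by
      refine Nat.Coprime.pow_left _ ((Fact.out : p.Prime).coprime_iff_not_dvd.2 fun h => ?_)
      have := (Fact.out : p.Prime).two_le
      exact absurd (Nat.le_of_dvd (by omega) h) (by omega)
    rw [← orderOf_eq_one_iff]
    exact Nat.eq_one_of_dvd_coprimes h3 (orderOf_dvd_of_pow_eq_one h1) (orderOf_dvd_of_pow_eq_one h2)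
  · obtain ⟨k, hk⟩ := P.2 ⟨Φ.rangeRestrict u.1, u.2⟩
    exact ⟨k, congrArg (fun x : (P : Subgroup Φ.range) => ((x.1.1).1 : Module.End (ZMod p) M)) hk⟩

/-- Restriction to a subgroup of index prime to `p` is injective in degree two. -/
theorem res_injective {U : Subgroup (primeLocalGaloisGroup q)} (hU : IsLocLevel q U) [U.FiniteIndex]
    (hidx : ¬ p ∣ U.index) (hM : IsSmoothRep LA (rq q) M) (x : H2c LA (rq q) M)
    (h : mapH2 (M := M) (N := Rep.res U.subtype M) (L := LA) (r := rq q) (L' := LA) (r' := rV q U)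
      U.subtype (isLevelHom_subtype _ U) LinearMap.id (fun _ _ => rfl) x = 0) : x = 0 := by
  classical
  let _ := Fintype.ofFinite (primeLocalGaloisGroup q ⧸ U)
  -- constants and averaging
  let ι : M →ₗ[ZMod p] funRep M U := LinearMap.pi fun _ => LinearMap.id
  have hι : ∀ g m, ι (M.ρ g m) = (funRep M U).ρ g (ι m) := fun g m => rfl
  have hU0 : (U.index : ZMod p) ≠ 0 := by rwa [Ne, ZMod.natCast_eq_zero_iff]
  let avg : funRep M U →ₗ[ZMod p] M := (U.index : ZMod p)⁻¹ • ∑ y, LinearMap.proj y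
  have havg : ∀ g f, avg ((funRep M U).ρ g f) = M.ρ g (avg f) := fun g f => by
    simp only [avg, LinearMap.smul_apply, LinearMap.sum_apply, LinearMap.proj_apply, map_smul,
      map_sum]
    congr 1
    exact Fintype.sum_equiv (MulAction.toPerm (α := primeLocalGaloisGroup q) g⁻¹) _ _ fun y => rfl
  have havgι : ∀ m, avg (ι m) = m := fun m => by
    simp only [avg, ι, LinearMap.smul_apply, LinearMap.sum_apply, LinearMap.proj_apply,
      LinearMap.pi_apply, LinearMap.id_apply, Finset.sum_const, Finset.card_univ,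
      ← Nat.card_eq_fintype_card, ← Subgroup.index_eq_card]
    rw [← Nat.cast_smul_eq_nsmul (ZMod p), smul_smul, inv_mul_cancel₀ hU0, one_smul]
  have h1 : shapiro₂ (L := LA) (r := rq q) U M (pushH2 ι hι x) = _ :=
    shapiro₂_pushH2 ι hι LinearMap.id (fun _ _ => rfl) (fun _ => rfl) x
  rw [h, ← map_zero (shapiro₂ (L := LA) (r := rq q) U M)] at h1
  have h2 := (shapiro₂_bijective Levels.hasNormal_all hU hM).1 h1
  have h3 : pushH2 avg havg (pushH2 ι hι x) = x := by
    refine (pushH2_pushH2 ι hι avg havg LinearMap.id (fun _ _ => rfl) havgι x).trans ?_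
    exact mapH2_id _ _ _ (fun _ => rfl) x
  rw [← h3, h2, map_zero]

/-- **Detection**: classes of `H²(G_q, M)` are detected by equivariant maps `M → μ_p`. -/
theorem detect_loc (hp2 : p ≠ 2) [FiniteDimensional (ZMod p) M] (hM : IsSmoothRep LA (rq q) M)
    (x : H2c LA (rq q) M) (hx : ∀ f : equiHom M (muLoc p q), pushLin x f = 0) : x = 0 := by
  classical
  obtain ⟨U, hU, hfi, hidx, hμ, hunip⟩ := exists_sylow_level hM
  let _ := Fintype.ofFinite (primeLocalGaloisGroup q ⧸ U)
  apply res_injective hU hidx hM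
  refine detect hU hμ hunip (isSmoothRep_res hM _ (isLevelHom_subtype _ U)) _ fun f => ?_
  have hfU : ∀ (u : U) (m : M), f.1 (M.ρ (u : primeLocalGaloisGroup q) m) = f.1 m := fun u m =>
    (f.2 u m).trans (muV_ρ hμ u _)
  let φ₀ : primeLocalGaloisGroup q ⧸ U → (M →ₗ[ZMod p] ZMod p) :=
    Quotient.lift (fun h => (cycloChar p (rq q h) : ZMod p) •
      ((f.1 : M →ₗ[ZMod p] muV p q U) ∘ₗ M.ρ h⁻¹ : M →ₗ[ZMod p] ZMod p)) (by
      intro a b hab
      have h : a⁻¹ * b ∈ U := QuotientGroup.leftRel_apply.1 hab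
      obtain ⟨u, rfl⟩ : ∃ u : U, b = a * u := ⟨⟨_, h⟩, by simp⟩
      refine LinearMap.ext fun m => ?_
      simp only [LinearMap.smul_apply, LinearMap.comp_apply, mul_inv_rev, map_mul,
        Module.End.mul_apply, hμ _ u.2, mul_one]
      rw [← Subgroup.coe_inv, hfU])
  let φ : M →ₗ[ZMod p] funRep (muLoc p q) U := LinearMap.pi φ₀
  have hφ : ∀ g m, φ (M.ρ g m) = (funRep (muLoc p q) U).ρ g (φ m) := by
    intro g m
    funext y
    induction y using QuotientGroup.induction_on with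
    | _ h =>
      change φ₀ (QuotientGroup.mk h) (M.ρ g m) =
        (muLoc p q).ρ g (φ₀ (QuotientGroup.mk (g⁻¹ * h)) m)
      rw [muLoc_ρ]
      change (cycloChar p (rq q h) : ZMod p) * (f.1 (M.ρ h⁻¹ (M.ρ g m)) : ZMod p) =
        (cycloChar p (rq q g) : ZMod p) * ((cycloChar p (rq q (g⁻¹ * h)) : ZMod p) *
          (f.1 (M.ρ (g⁻¹ * h)⁻¹ m) : ZMod p))
      rw [← mul_assoc, ← Units.val_mul, ← map_mul, ← map_mul, mul_inv_cancel_left, mul_inv_rev,
        inv_inv, ← Module.End.mul_apply, ← map_mul]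
  let σ : funRep (muLoc p q) U →ₗ[ZMod p] muLoc p q := ∑ y, LinearMap.proj y
  have hσe : ∀ g f, σ ((funRep (muLoc p q) U).ρ g f) = (muLoc p q).ρ g (σ f) := fun g f => by
    simp only [σ, LinearMap.sum_apply, LinearMap.proj_apply, map_sum]
    exact Fintype.sum_equiv (MulAction.toPerm (α := primeLocalGaloisGroup q) g⁻¹) _ _ fun y => rfl
  have hσ : ∀ f, σ f = ∑ᶠ y, f y := fun f => by
    simp only [σ, LinearMap.sum_apply, LinearMap.proj_apply, finsum_eq_sum_of_fintype]
  have h0 : pushH2 φ hφ x = 0 := by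
    apply sigma_injective hp2 hU σ hσ hσe
    rw [map_zero]
    refine Eq.trans ?_ (hx ⟨σ ∘ₗ φ, fun g m => (congrArg σ (hφ g m)).trans (hσe g _)⟩)
    exact pushH2_pushH2 φ hφ σ hσe _ _ (fun _ => rfl) x
  have h1 : shapiro₂ (L := LA) (r := rq q) U (muLoc p q) (pushH2 φ hφ x) = 0 := by rw [h0, map_zero]
  let χf : M →ₗ[ZMod p] muV p q U := f.1
  have hχf : ∀ (u : U) (m : M), χf (M.ρ (U.subtype u) m) = (muV p q U).ρ u (χf m) := fun u m => f.2 u m
  have e1 : pushH2 f.1 f.2 (mapH2 (M := M) (N := Rep.res U.subtype M) (L := LA) (r := rq q) (L' := LA)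
      (r' := rV q U) U.subtype (isLevelHom_subtype _ U) LinearMap.id (fun _ _ => rfl) x) =
      mapH2 U.subtype (isLevelHom_subtype _ U) χf hχf x := by
    obtain ⟨c, rfl⟩ := Submodule.mkQ_surjective _ x
    exact congrArg (H2cπ LA (rV q U) (muV p q U)) (Subtype.ext (funext fun _ => rfl))
  have e2 : shapiro₂ (L := LA) (r := rq q) U (muLoc p q) (pushH2 φ hφ x) =
      mapH2 U.subtype (isLevelHom_subtype _ U) χf hχf x := by
    refine shapiro₂_pushH2 φ hφ χf hχf (fun m => ?_) x
    change φ₀ (QuotientGroup.mk 1) m = f.1 m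
    change (cycloChar p (rq q 1) : ZMod p) * (f.1 (M.ρ (1 : primeLocalGaloisGroup q)⁻¹ m) : ZMod p) = _
    simp only [map_one, Units.val_one, one_mul, inv_one, Module.End.one_apply]
  rw [pushLin_apply]
  exact e1.trans (e2.symm.trans h1)

variable {A : Rep.{0} (ZMod p) (primeLocalGaloisGroup q)}
  (P : DualPair p ((cycloChar p).comp (rq q)) A M)

lemma dualPair_bijective [FiniteDimensional (ZMod p) M] :
    Function.Bijective P.β ∧ FiniteDimensional (ZMod p) A ∧ Function.Bijective P.β.flip := by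
  have hinj : Function.Injective P.β := (injective_iff_map_eq_zero P.β).2 fun a ha =>
    P.left a fun m => LinearMap.congr_fun ha m
  have : FiniteDimensional (ZMod p) A := Module.Finite.of_injective P.β hinj
  have hinj' : Function.Injective P.β.flip := (injective_iff_map_eq_zero P.β.flip).2 fun m hm =>
    P.right m fun a => LinearMap.congr_fun hm a
  have h1 := LinearMap.finrank_le_finrank_of_injective hinj
  have h2 := LinearMap.finrank_le_finrank_of_injective hinj'
  rw [Subspace.dual_finrank_eq] at h1 h2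
  refine ⟨⟨hinj, (LinearMap.injective_iff_surjective_of_finrank_eq_finrank ?_).1 hinj⟩, this, hinj',
    (LinearMap.injective_iff_surjective_of_finrank_eq_finrank ?_).1 hinj'⟩ <;>
    rw [Subspace.dual_finrank_eq] <;> omega

lemma pair_equi (a : A.ρ.invariants) (g : primeLocalGaloisGroup q) (m : M) :
    (P.β a.1 (M.ρ g m) : ZMod p) = (muLoc p q).ρ g (P.β a.1 m) := by
  rw [muLoc_ρ]
  have := P.equivariant g a.1 m
  rwa [a.2 g] at this

/-- `thetaLoc` is bijective. -/
theorem thetaLoc_bij (hp2 : p ≠ 2) [FiniteDimensional (ZMod p) M] (hM : IsSmoothRep LA (rq q) M) :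
    Function.Bijective (thetaLoc P) := by
  classical
  obtain ⟨hβ, hAfd, hβ'⟩ := dualPair_bijective P
  refine ⟨(injective_iff_map_eq_zero (thetaLoc P)).2 fun x hx => detect_loc hp2 hM x fun f => ?_,
    fun l => ?_⟩
  · obtain ⟨a, ha⟩ := hβ.2 (f.1 : M →ₗ[ZMod p] muLoc p q)
    have hainv : a ∈ A.ρ.invariants := fun g => hβ.1 (LinearMap.ext fun m => by
      have h1 := P.equivariant g a (M.ρ g⁻¹ m)
      rw [← Module.End.mul_apply, ← map_mul, mul_inv_cancel, map_one, Module.End.one_apply] at h1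
      rw [h1, ha, f.2 g⁻¹ m, muLoc_ρ, ← mul_assoc, MonoidHom.comp_apply, ← Units.val_mul, ← map_mul,
        ← map_mul, mul_inv_cancel, map_one, map_one, Units.val_one, one_mul])
    apply invLoc_injective hp2 q
    refine Eq.trans ?_ (LinearMap.congr_fun hx ⟨a, hainv⟩)
    refine congrArg (invLoc p q) ?_
    exact mapH2_congr _ _ _ _ _ _ _ (fun m => (LinearMap.congr_fun ha m).symm) x
  · obtain ⟨l', hl'⟩ := LinearMap.exists_extend l
    obtain ⟨n, hn⟩ := hβ'.2 l'
    obtain ⟨F₁, hF₁, hfix⟩ := hM n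
    obtain ⟨F₂, hF₂, hcyc⟩ := exists_level_cycloChar p
    let U : Subgroup (primeLocalGaloisGroup q) := (F₁ ⊔ F₂).fixingSubgroup.comap (rq q)
    have hU : IsLocLevel q U := ⟨F₁ ⊔ F₂, (Levels.all).sup _ _ hF₁ hF₂, fun s hs => hs⟩
    have : U.FiniteIndex := finiteIndex_of_isLocLevel hU
    let _ := Fintype.ofFinite (primeLocalGaloisGroup q ⧸ U)
    let nn : primeLocalGaloisGroup q ⧸ U → M :=
      Quotient.lift (fun h => (((cycloChar p (rq q h))⁻¹ : (ZMod p)ˣ) : ZMod p) • M.ρ h n) (by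
        intro a b hab
        obtain ⟨u, hu, rfl⟩ : ∃ u ∈ U, b = a * u :=
          ⟨_, QuotientGroup.leftRel_apply.1 hab, by simp⟩
        have hu' : rq q u ∈ (F₁ ⊔ F₂).fixingSubgroup := hu
        simp only [map_mul, Module.End.mul_apply]
        rw [hfix u (IntermediateField.fixingSubgroup_antitone le_sup_left hu'),
          hcyc _ (IntermediateField.fixingSubgroup_antitone le_sup_right hu'), mul_one])
    let ψ : funRep (muLoc p q) U →ₗ[ZMod p] M :=
      ∑ y, ((LinearMap.proj y : funRep (muLoc p q) U →ₗ[ZMod p] muLoc p q) :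
        funRep (muLoc p q) U →ₗ[ZMod p] ZMod p).smulRight (nn y)
    have hψapp : ∀ f, ψ f = ∑ y, (f y : ZMod p) • nn y := fun f => by
      simp only [ψ, LinearMap.sum_apply, LinearMap.smulRight_apply]
      rfl
    have hψ : ∀ g f, ψ ((funRep (muLoc p q) U).ρ g f) = M.ρ g (ψ f) := fun g f => by
      rw [hψapp, hψapp, map_sum]
      refine Fintype.sum_equiv (MulAction.toPerm (α := primeLocalGaloisGroup q) g⁻¹) _ _ fun y => ?_
      induction y using QuotientGroup.induction_on with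
      | _ h =>
        change ((muLoc p q).ρ g (f (QuotientGroup.mk (g⁻¹ * h))) : ZMod p) •
          ((((cycloChar p (rq q h))⁻¹ : (ZMod p)ˣ) : ZMod p) • M.ρ h n) =
          M.ρ g ((f (QuotientGroup.mk (g⁻¹ * h)) : ZMod p) •
            ((((cycloChar p (rq q (g⁻¹ * h)))⁻¹ : (ZMod p)ˣ) : ZMod p) • M.ρ (g⁻¹ * h) n))
        rw [muLoc_ρ, map_smul, map_smul, ← Module.End.mul_apply, ← map_mul, mul_inv_cancel_left,
          smul_smul, smul_smul, map_mul, map_mul, map_inv, map_inv, mul_inv_rev, inv_inv,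
          Units.val_mul]
        congr 1
        ring
    let σ : funRep (muLoc p q) U →ₗ[ZMod p] muLoc p q := ∑ y, LinearMap.proj y
    have hσe : ∀ g f, σ ((funRep (muLoc p q) U).ρ g f) = (muLoc p q).ρ g (σ f) := fun g f => by
      simp only [σ, LinearMap.sum_apply, LinearMap.proj_apply, map_sum]
      exact Fintype.sum_equiv (MulAction.toPerm (α := primeLocalGaloisGroup q) g⁻¹) _ _ fun y => rfl
    have hσ : ∀ f, σ f = ∑ᶠ y, f y := fun f => by
      simp only [σ, LinearMap.sum_apply, LinearMap.proj_apply, finsum_eq_sum_of_fintype]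
    obtain ⟨w, hw⟩ := (invLoc_bijective hp2 q).2 1
    obtain ⟨c, rfl⟩ := sum_pushH2_surjective hU σ hσ hσe w
    refine ⟨pushH2 ψ hψ c, LinearMap.ext fun a => ?_⟩
    have hcomp : ∀ f, (P.β a.1 (ψ f) : ZMod p) = (P.β a.1 n) * (σ f : ZMod p) := fun f => by
      rw [hψapp, map_sum, hσ, finsum_eq_sum_of_fintype]
      rw [show ((∑ y, f y : muLoc p q) : ZMod p) = ∑ y, (f y : ZMod p) from rfl, Finset.mul_sum]
      refine Finset.sum_congr rfl fun y _ => ?_
      induction y using QuotientGroup.induction_on with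
      | _ h =>
        change P.β a.1 ((f _ : ZMod p) • ((((cycloChar p (rq q h))⁻¹ : (ZMod p)ˣ) : ZMod p) • M.ρ h n)) = _
        have e := P.equivariant h a.1 n
        rw [a.2 h] at e
        rw [map_smul, map_smul, smul_eq_mul, smul_eq_mul, e, MonoidHom.comp_apply,
          Units.inv_mul_cancel_left, mul_comm]
    have key : thetaLoc P (pushH2 ψ hψ c) a = (P.β a.1 n) * invLoc p q (pushH2 σ hσe c) := by
      rw [← smul_eq_mul, ← map_smul]
      refine congrArg (invLoc p q) ?_
      refine (pushH2_pushH2 (C := muLoc p q) ψ hψ (P.β a.1) (pair_equi P a)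
        ((P.β a.1 n : ZMod p) • σ) (((P.β a.1 n : ZMod p) • (⟨σ, hσe⟩ : equiHom _ _)).2)
        (fun f => hcomp f) c).trans ?_
      exact ((pushLin c).map_smul (P.β a.1 n : ZMod p) ⟨σ, hσe⟩)
    rw [key, hw, mul_one]
    exact (LinearMap.congr_fun hn a.1).trans (LinearMap.congr_fun hl' a)

/-- A class of `H¹(A)` orthogonal to all of `H¹(M)` is zero. -/
theorem pairing_injective (hp2 : p ≠ 2) [FiniteDimensional (ZMod p) M] (hM : IsSmoothRep LA (rq q) M)
    (a : cocycles₁ A) (ha : IsConst₁ LA (rq q) a)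
    (h : ∀ m : cocycles₁ M, IsConst₁ LA (rq q) m →
      ∃ c : ↥(Z2 LA (rq q) (muLoc p q)), (∀ g, (c.1 g : ZMod p) = P.β (a g.1) (M.ρ g.1 (m g.2))) ∧
        invLoc p q (H2cπ _ _ _ c) = 0) :
    (H1π A).hom a = 0 := by
  classical
  obtain ⟨hβ, hAfd, -⟩ := dualPair_bijective P
  -- the extension of `M` by `μ_p`
  let χ : primeLocalGaloisGroup q → ZMod p := fun g => cycloChar p (rq q g)
  let ρE : Representation (ZMod p) (primeLocalGaloisGroup q) (M × ZMod p) :=
    { toFun := fun g => LinearMap.prod (M.ρ g ∘ₗ LinearMap.fst _ _ _)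
        (χ g • LinearMap.snd _ _ _ - (P.β (a g) ∘ₗ M.ρ g) ∘ₗ LinearMap.fst _ _ _)
      map_one' := by
        refine LinearMap.ext fun x => ?_
        simp [χ]
      map_mul' := fun g g' => by
        refine LinearMap.ext fun x => ?_
        have e := P.equivariant g (a g') (M.ρ g' x.1)
        rw [MonoidHom.comp_apply] at e
        have h2 : a (g * g') = A.ρ g (a g') + a g := (mem_cocycles₁_iff _).1 a.2 g g'
        change (M.ρ (g * g') x.1, χ (g * g') * x.2 - P.β (a (g * g')) (M.ρ (g * g') x.1)) =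
          (M.ρ g (M.ρ g' x.1),
            χ g * (χ g' * x.2 - P.β (a g') (M.ρ g' x.1)) - P.β (a g) (M.ρ g (M.ρ g' x.1)))
        simp only [χ, map_mul, Units.val_mul, Module.End.mul_apply, h2, map_add, LinearMap.add_apply, e]
        refine Prod.ext rfl ?_
        ring }
  let E : Rep.{0} (ZMod p) (primeLocalGaloisGroup q) := Rep.of ρE
  have : FiniteDimensional (ZMod p) E := inferInstanceAs (FiniteDimensional (ZMod p) (M × ZMod p))
  have hEsm : IsSmoothRep LA (rq q) E := fun x => by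
    obtain ⟨F₁, hF₁, h1⟩ := hM (x : M × ZMod p).1
    obtain ⟨F₂, hF₂, h2⟩ := exists_level_cycloChar p
    obtain ⟨F₃, hF₃, h3⟩ := ha
    refine ⟨F₁ ⊔ (F₂ ⊔ F₃), (Levels.all).sup _ _ hF₁ ((Levels.all).sup _ _ hF₂ hF₃), fun s hs => ?_⟩
    have hs1 := IntermediateField.fixingSubgroup_antitone le_sup_left hs
    have hs2 := IntermediateField.fixingSubgroup_antitone (le_sup_left.trans le_sup_right) hs
    have hs3 := IntermediateField.fixingSubgroup_antitone (le_sup_right.trans le_sup_right) hs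
    have has : a s = 0 := by
      have := h3 1 s hs3
      rwa [one_mul, cocycles₁_map_one] at this
    refine Prod.ext (h1 s hs1) ?_
    change χ s * (x : M × ZMod p).2 - P.β (a s) (M.ρ s (x : M × ZMod p).1) = _
    simp [χ, h2 _ hs2, has]
  let i : muLoc p q →ₗ[ZMod p] E := LinearMap.inr (ZMod p) M (ZMod p)
  have hi : ∀ g t, i ((muLoc p q).ρ g t) = E.ρ g (i t) := fun g t => by
    refine Prod.ext (map_zero (M.ρ g)).symm ?_
    change ((muLoc p q).ρ g t : ZMod p) = χ g * (t : ZMod p) - P.β (a g) (M.ρ g 0)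
    rw [muLoc_ρ, map_zero, map_zero, sub_zero]
  let pr : E →ₗ[ZMod p] M := LinearMap.fst (ZMod p) M (ZMod p)
  have hpr : ∀ g x, pr (E.ρ g x) = M.ρ g (pr x) := fun g x => rfl
  by_contra hne
  -- every equivariant functional kills `μ_p`
  have hkill : ∀ f : equiHom E (muLoc p q), ∀ t, f.1 (i t) = 0 := by
    intro f
    let κ : ZMod p := f.1 ((0 : M), (1 : ZMod p))
    have hsplit : ∀ m t, (f.1 ((m : M), (t : ZMod p)) : ZMod p) = f.1 (m, 0) + t * κ := fun m t => by
      rw [show ((m, t) : M × ZMod p) = (m, 0) + t • ((0 : M), (1 : ZMod p)) by simp]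
      exact (map_add f.1 ((m, 0) : E) (t • ((0 : M), (1 : ZMod p)) : E)).trans
        (congrArg (f.1 ((m, 0) : E) + ·) (map_smul f.1 t ((0 : M), (1 : ZMod p))))
    suffices hκ : κ = 0 by
      intro t
      refine (hsplit 0 t).trans ?_
      rw [hκ, mul_zero, add_zero]
      exact map_zero f.1
    by_contra hκ
    obtain ⟨b, hb⟩ := hβ.2 ((f.1 : E →ₗ[ZMod p] muLoc p q) ∘ₗ LinearMap.inl (ZMod p) M (ZMod p))
    have hb' : ∀ m, (P.β b m : ZMod p) = f.1 (m, 0) := fun m => LinearMap.congr_fun hb m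
    refine hne ((H1π_eq_zero_iff a).2 ⟨-κ⁻¹ • b, funext fun g => hβ.1 (LinearMap.ext fun m => ?_)⟩)
    rw [d₀₁_hom_apply]
    have e := P.equivariant g b (M.ρ g⁻¹ m)
    rw [← Module.End.mul_apply, ← map_mul, mul_inv_cancel, map_one, Module.End.one_apply] at e
    have h1 : (f.1 (m, χ g * 0 - P.β (a g) m) : ZMod p) = χ g * (f.1 (M.ρ g⁻¹ m, 0) : ZMod p) := by
      have := f.2 g ((M.ρ g⁻¹ m, 0) : M × ZMod p)
      rw [muLoc_ρ] at this
      refine Eq.trans ?_ this
      congr 1
      refine Prod.ext ?_ ?_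
      · change m = M.ρ g (M.ρ g⁻¹ m)
        rw [← Module.End.mul_apply, ← map_mul, mul_inv_cancel, map_one, Module.End.one_apply]
      · change _ = χ g * 0 - P.β (a g) (M.ρ g (M.ρ g⁻¹ m))
        rw [← Module.End.mul_apply, ← map_mul, mul_inv_cancel, map_one, Module.End.one_apply]
    rw [hsplit, ← hb', ← hb'] at h1
    change P.β (A.ρ g (-κ⁻¹ • b) - -κ⁻¹ • b) m = P.β (a g) m
    simp only [map_sub, map_smul, LinearMap.sub_apply, LinearMap.smul_apply, e, smul_eq_mul,
      MonoidHom.comp_apply]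
    simp only [χ] at h1
    field_simp
    linear_combination h1
  obtain ⟨x0, hx0⟩ := (invLoc_bijective hp2 q).2 1
  obtain ⟨c, rfl⟩ := Submodule.mkQ_surjective _ x0
  have hz : pushH2 i hi (H2cπ LA (rq q) _ c) = 0 := detect_loc hp2 hEsm _ fun f => by
    rw [pushLin_apply]
    refine (pushH2_pushH2 i hi f.1 f.2 (f.1 ∘ₗ i) (fun g t => (congrArg f.1 (hi g t)).trans (f.2 g _))
      (fun _ => rfl) _).trans ?_
    exact mapH2_eq_zero _ _ _ _ (fun t => hkill f t) _
  obtain ⟨z, hzc, hzcoc, hzd⟩ := H2c_ker_eq_delta (L := LA) (r := rq q) i hi pr hpr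
    Levels.hasNormal_all hEsm (fun _ _ h => congrArg Prod.snd h) Prod.fst_surjective
    (fun x => ⟨fun hx => ⟨(x : M × ZMod p).2, Prod.ext hx.symm rfl⟩, by rintro ⟨t, rfl⟩; rfl⟩) c hz
  obtain ⟨c', hc', hinv⟩ := h ⟨fun s => pr (z s), (mem_cocycles₁_iff _).2 hzcoc⟩ (hzc.comp pr)
  have hsum : H2cπ LA (rq q) (muLoc p q) (c + c') = 0 := by
    refine (H2cπ_eq_zero_iff _).2 ⟨fun s => (z s : M × ZMod p).2, hzc.comp Prod.snd, fun s t => ?_⟩
    have e := congrArg Prod.snd (hzd s t)
    change (c.1 (s, t) : ZMod p) = χ s * (z t : M × ZMod p).2 -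
      P.β (a s) (M.ρ s (z t : M × ZMod p).1) - (z (s * t) : M × ZMod p).2 + (z s : M × ZMod p).2 at e
    change ((c.1 (s, t) : ZMod p) + (c'.1 (s, t) : ZMod p)) = _
    rw [hc', e, muLoc_ρ]
    change _ - _ - _ + _ + P.β (a s) (M.ρ s (z t : M × ZMod p).1) = _
    simp only [χ]
    ring
  rw [map_add, add_eq_zero_iff_eq_neg] at hsum
  rw [show (Submodule.mkQ _ c : H2c LA (rq q) (muLoc p q)) = H2cπ LA (rq q) _ c from rfl, hsum,
    map_neg, hinv, neg_zero] at hx0
  exact zero_ne_one hx0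

theorem finite_H2c_loc (hp2 : p ≠ 2) [FiniteDimensional (ZMod p) M] (hM : IsSmoothRep LA (rq q) M) :
    FiniteDimensional (ZMod p) (H2c LA (rq q) M) := by
  have : Finite M := Module.finite_of_finite (ZMod p)
  have : Finite (muLoc p q) := inferInstanceAs (Finite (ZMod p))
  have hfin : Finite (equiHom M (muLoc p q)) :=
    Finite.of_injective (fun f => (f.1 : M → muLoc p q)) fun a b h => Subtype.ext (DFunLike.coe_injective h)
  have : Finite (H2c LA (rq q) (muLoc p q)) :=
    Finite.of_injective (invLoc p q) (invLoc_bijective hp2 q).1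
  have : Finite (H2c LA (rq q) M) := Finite.of_injective
    (fun x => ((pushBil x : equiHom M (muLoc p q) →ₗ[ZMod p] _) : equiHom M (muLoc p q) → _))
    fun x y h => sub_eq_zero.1 (detect_loc hp2 hM _ fun f => by
      have h' := congrFun h f
      change pushH2 f.1 f.2 (x - y) = 0
      rw [map_sub]
      exact sub_eq_zero.2 h')
  exact Module.Finite.of_finite

theorem finite_H1c_loc (hp2 : p ≠ 2) [FiniteDimensional (ZMod p) M] (hM : IsSmoothRep LA (rq q) M) :
    FiniteDimensional (ZMod p) (H1c LA (rq q) M) := by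
  obtain ⟨F₁, hF₁, hfix⟩ := exists_level_fix hM
  obtain ⟨F₂, hF₂, hcyc⟩ := exists_level_cycloChar p
  let U : Subgroup (primeLocalGaloisGroup q) := (F₁ ⊔ F₂).fixingSubgroup.comap (rq q)
  have hU : IsLocLevel q U := ⟨F₁ ⊔ F₂, (Levels.all).sup _ _ hF₁ hF₂, fun s hs => hs⟩
  have : U.FiniteIndex := finiteIndex_of_isLocLevel hU
  have hμ : ∀ τ ∈ U, cycloChar p (rq q τ) = 1 := fun τ hτ =>
    hcyc _ (IntermediateField.fixingSubgroup_antitone le_sup_right (show _ ∈ _ from hτ))
  have htriv : ∀ u : U, M.ρ (u : primeLocalGaloisGroup q) = 1 := fun u => LinearMap.ext fun m =>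
    hfix _ (IntermediateField.fixingSubgroup_antitone le_sup_left (show _ ∈ _ from u.2)) m
  have hsmU := isSmoothRep_res hM U.subtype (isLevelHom_subtype (L := LA) _ U)
  have := (finrank_Z1_eq hp2 hU hμ (N := Rep.res U.subtype M)
    (fun u => ⟨0, by rw [pow_zero, pow_one]; exact htriv u⟩) hsmU).1
  have : Finite M := Module.finite_of_finite (ZMod p)
  have : Finite (Z1 LA (rV q U) (Rep.res U.subtype M)) := Module.finite_of_finite (ZMod p)
  let R : Z1 LA (rq q) M →
      Z1 LA (rV q U) (Rep.res U.subtype M) × (primeLocalGaloisGroup q ⧸ U → M) := fun z =>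
    (⟨⟨fun u => z.1 (u : primeLocalGaloisGroup q), (mem_cocycles₁_iff _).2 fun s t =>
        (mem_cocycles₁_iff _).1 z.1.2 (s : primeLocalGaloisGroup q) t⟩,
      IsConst₁.pull (isLevelHom_subtype _ U) (show IsConst₁ LA (rq q) (z.1 : _ → M) from z.2)⟩,
      fun y => z.1 y.out)
  have hR : Function.Injective R := fun z z' h => Subtype.ext (cocycles₁_ext fun g => by
    obtain ⟨u, hu⟩ := QuotientGroup.mk_out_eq_mul U g
    have h1 : ∀ u : U, z.1 (u : primeLocalGaloisGroup q) = z'.1 (u : primeLocalGaloisGroup q) :=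
      fun u => congrArg (fun w : Z1 LA (rV q U) (Rep.res U.subtype M) => w.1 u) (congrArg Prod.fst h)
    have hg : g = (QuotientGroup.mk g : primeLocalGaloisGroup q ⧸ U).out * ((u⁻¹ : U) : primeLocalGaloisGroup q) := by
      rw [hu]; simp
    have e1 := (mem_cocycles₁_iff _).1 z.1.2 (QuotientGroup.mk g : primeLocalGaloisGroup q ⧸ U).out
      ((u⁻¹ : U) : primeLocalGaloisGroup q)
    have e2 := (mem_cocycles₁_iff _).1 z'.1.2 (QuotientGroup.mk g : primeLocalGaloisGroup q ⧸ U).out
      ((u⁻¹ : U) : primeLocalGaloisGroup q)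
    simp only [cocycles₁.val_eq_coe] at e1 e2
    rw [hg, e1, e2, h1]
    exact congrArg _ (congrFun (congrArg Prod.snd h) (QuotientGroup.mk g)))
  have : Finite (Z1 LA (rq q) M) := Finite.of_injective R hR
  have : Finite (H1c LA (rq q) M) := Finite.of_surjective
    (fun z : Z1 LA (rq q) M => (⟨_, Submodule.mem_map_of_mem (f := (H1π M).hom) z.2⟩ : H1c LA (rq q) M))
    fun x => by
      obtain ⟨c, hc, hcx⟩ := x.2
      exact ⟨⟨c, hc⟩, Subtype.ext hcx⟩
  exact Module.Finite.of_finite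

end Fermat.Agent.CFT.LocalDual
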