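import Fermat.Agent.CFT.Interface.Cohomology
import Fermat.Agent.CFT.Interface.Local
import Fermat.Agent.CFT.Interface.Reciprocity
import Fermat.Agent.CFT.LocalDual.Basic

/-!
# Unipotent modules over a local field containing `μ_p`

For a level subgroup `V` of the local Galois group on which `μ_p` is trivial and a module `N` on
which `V` acts through a `p`-group:

* `detect`: classes in `H²(V, N)` are detected by invariant functionals `N → μ_p`;
* `pushH2_surjective`: a non-zero invariant functional is onto in degree two;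
* `finrank_Z1_eq`: `dim Z¹ = dim H² + dim N * (1 + e)`.
-/

set_option autoImplicit false
set_option linter.unusedSectionVars false

open CategoryTheory groupCohomology ExtCitation Module

noncomputable section

namespace Fermat.Agent.CFT.LocalDual

variable {p : ℕ} [Fact p.Prime]

/-- Every element acts by an operator of `p`-power order. -/
def IsPUnip {G : Type} [Group G] (N : Rep.{0} (ZMod p) G) : Prop :=
  ∀ g : G, ∃ k : ℕ, N.ρ g ^ p ^ k = 1

/-- A non-zero module with `p`-group action has a non-zero invariant functional. -/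
theorem exists_invariant_functional {G : Type} [Group G] {N : Rep.{0} (ZMod p) G}
    [FiniteDimensional (ZMod p) N] [Nontrivial N] (hN : IsPUnip N) :
    ∃ f : N →ₗ[ZMod p] ZMod p, f ≠ 0 ∧ ∀ g n, f (N.ρ g n) = f n := by
  classical
  have : Finite N := Module.finite_of_finite (ZMod p)
  have : Finite (Module.End (ZMod p) N) := Finite.of_injective (fun f => (f : N → N)) DFunLike.coe_injective
  let P : Subgroup (Module.End (ZMod p) N)ˣ := N.ρ.asGroupHom.range
  have hP : IsPGroup p P := by
    rintro ⟨_, g, rfl⟩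
    obtain ⟨k, hk⟩ := hN g
    refine ⟨k, Subtype.ext (Units.ext ?_)⟩
    simpa [Representation.asGroupHom_apply] using hk
  let : MulAction P (Module.Dual (ZMod p) N) :=
    { smul := fun u f => f ∘ₗ ((u.1⁻¹ : (Module.End (ZMod p) N)ˣ) : Module.End (ZMod p) N)
      one_smul := fun f => by
        change f ∘ₗ _ = f
        simp [Module.End.one_eq_id]
      mul_smul := fun u v f => by
        change f ∘ₗ _ = (f ∘ₗ _) ∘ₗ _
        simp [mul_inv_rev, Module.End.mul_eq_comp, LinearMap.comp_assoc] }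
  have : Finite (Module.Dual (ZMod p) N) := Module.finite_of_finite (ZMod p)
  have hdvd : p ∣ Nat.card (Module.Dual (ZMod p) N) := by
    rw [Module.natCard_eq_pow_finrank (K := ZMod p), Nat.card_zmod]
    exact dvd_pow_self _ (by rw [Subspace.dual_finrank_eq]; exact Module.finrank_pos.ne')
  have h0 : (0 : Module.Dual (ZMod p) N) ∈ MulAction.fixedPoints P (Module.Dual (ZMod p) N) :=
    fun u => LinearMap.zero_comp _
  obtain ⟨f, hf, hne⟩ := hP.exists_fixed_point_of_prime_dvd_card_of_fixed_point _ hdvd h0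
  refine ⟨f, hne.symm, fun g n => ?_⟩
  have := LinearMap.congr_fun (hf ⟨(N.ρ.asGroupHom g)⁻¹, inv_mem ⟨g, rfl⟩⟩) n
  change f ((((N.ρ.asGroupHom g)⁻¹)⁻¹ : (Module.End (ZMod p) N)ˣ).val n) = f n at this
  simpa [Representation.asGroupHom_apply] using this

/-- A stable submodule as a representation. -/
def subRep {G : Type} [Group G] (N : Rep.{0} (ZMod p) G) (W : Submodule (ZMod p) N)
    (hW : ∀ g w, w ∈ W → N.ρ g w ∈ W) : Rep.{0} (ZMod p) G :=
  Rep.of (X := W)
    { toFun := fun g => (N.ρ g).restrict fun w hw => hW g w hw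
      map_one' := by apply LinearMap.ext; intro w; apply Subtype.ext; simp
      map_mul' := fun g h => by apply LinearMap.ext; intro w; apply Subtype.ext; simp }

lemma subRep_isPUnip {G : Type} [Group G] {N : Rep.{0} (ZMod p) G} (hN : IsPUnip N)
    (W : Submodule (ZMod p) N) (hW : ∀ g w, w ∈ W → N.ρ g w ∈ W) : IsPUnip (subRep N W hW) :=
  fun g => by
    obtain ⟨k, hk⟩ := hN g
    have key : ∀ (n : ℕ) (w : subRep N W hW),
        (((subRep N W hW).ρ g ^ n) w : W).1 = (N.ρ g ^ n) (w : W).1 := fun n => by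
      induction n with
      | zero => intro w; rfl
      | succ n ih =>
        intro w
        rw [pow_succ', pow_succ', Module.End.mul_apply, Module.End.mul_apply, ← ih]
        rfl
    refine ⟨k, LinearMap.ext fun w => Subtype.ext ((key _ w).trans ?_)⟩
    rw [hk]
    rfl

instance subRep_finite {G : Type} [Group G] (N : Rep.{0} (ZMod p) G) [FiniteDimensional (ZMod p) N]
    (W : Submodule (ZMod p) N) (hW : ∀ g w, w ∈ W → N.ρ g w ∈ W) :
    FiniteDimensional (ZMod p) (subRep N W hW) :=
  inferInstanceAs (FiniteDimensional (ZMod p) W)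

variable (p) in
/-- A finite level fixes `μ_p`. -/
theorem exists_level_cycloChar :
    ∃ F : IntermediateField ℚ (AlgebraicClosure ℚ), FiniteDimensional ℚ F ∧
      ∀ s ∈ F.fixingSubgroup, cycloChar p s = 1 := by
  have : NeZero p := ⟨(Fact.out : p.Prime).ne_zero⟩
  obtain ⟨ζ, hζ⟩ := HasEnoughRootsOfUnity.exists_primitiveRoot (AlgebraicClosure ℚ) p
  refine ⟨IntermediateField.adjoin ℚ {ζ},
    IntermediateField.adjoin.finiteDimensional ((AlgebraicClosure.isAlgebraic ℚ).isAlgebraic ζ).isIntegral, fun s hs => ?_⟩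
  have hfix : s ζ = ζ := (IntermediateField.mem_fixingSubgroup_iff _ _).1 hs ζ
    (IntermediateField.subset_adjoin ℚ _ rfl)
  apply Units.ext
  refine (modularCyclotomicCharacter.unique (AlgebraicClosure ℚ) (card_rootsOfUnity_eq_self p)
    (s : AlgebraicClosure ℚ ≃+* AlgebraicClosure ℚ) (c := 1) fun t ht => ?_).symm
  obtain ⟨i, -, hi⟩ := hζ.eq_pow_of_pow_eq_one (ξ := ((t : (AlgebraicClosure ℚ)ˣ) : AlgebraicClosure ℚ))
    (by rw [← Units.val_pow_eq_pow_val, (mem_rootsOfUnity p t).1 ht, Units.val_one])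
  rw [ZMod.val_one, pow_one, ← hi]
  change s (ζ ^ i) = ζ ^ i
  rw [map_pow, hfix]

variable {q : Nat.Primes} {V : Subgroup (primeLocalGaloisGroup q)}

local notation "rq" => primeLocalToGlobal q
local notation "LA" => Levels.all

lemma muV_ρ (hμ : ∀ τ ∈ V, cycloChar p (rq τ) = 1) (s : V) (m : ZMod p) :
    (muV p q V).ρ s m = m := by
  change (muRep p).ρ (rq (s : primeLocalGaloisGroup q)) m = m
  rw [muRep_apply, hμ _ s.2, Units.val_one, one_mul]

variable (N : Rep.{0} (ZMod p) V)

/-- Hom-type cocycles: continuous additive characters of `V`. -/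
def homC : Submodule (ZMod p) (V → ZMod p) where
  carrier := {z | (∀ s t, z (s * t) = z s + z t) ∧ IsConst₁ LA (rV q V) z}
  add_mem' {a b} ha hb := ⟨fun s t => by simp [ha.1 s t, hb.1 s t]; ring,
    (ha.2.prodMk hb.2).comp fun x => x.1 + x.2⟩
  zero_mem' := ⟨fun s t => by simp, ⟨⊥, (Levels.all).bot, fun _ _ _ => rfl⟩⟩
  smul_mem' c a ha := ⟨fun s t => by simp [ha.1 s t, mul_add], ha.2.comp (c • ·)⟩

theorem finrank_homC (hV : IsLocLevel q V) (hμ : ∀ τ ∈ V, cycloChar p (rq τ) = 1) :
    FiniteDimensional (ZMod p) (homC (p := p) (V := V)) ∧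
      finrank (ZMod p) (homC (p := p) (V := V)) = 2 + if (q : ℕ) = p then V.index else 0 := by
  have h := natCard_hom hV hμ
  have : Finite (homC (p := p) (V := V)) := by
    apply Nat.finite_of_card_ne_zero
    exact h.trans_ne (pow_ne_zero _ (Fact.out : p.Prime).ne_zero)
  have hf : FiniteDimensional (ZMod p) (homC (p := p) (V := V)) := Module.Finite.of_finite
  refine ⟨hf, Nat.pow_right_injective (Fact.out : p.Prime).two_le ?_⟩
  change p ^ finrank (ZMod p) (homC (p := p) (V := V)) = p ^ _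
  calc p ^ finrank (ZMod p) (homC (p := p) (V := V)) = Nat.card (homC (p := p) (V := V)) := by
        rw [Module.natCard_eq_pow_finrank (K := ZMod p) (V := homC (p := p) (V := V)), Nat.card_zmod]
    _ = _ := h

variable {N}

section Step

variable (f0 : N →ₗ[ZMod p] ZMod p) (hf0 : ∀ g n, f0 (N.ρ g n) = f0 n) (n0 : N)

/-- The kernel of `f0` as a representation. -/
abbrev kerRep : Rep.{0} (ZMod p) V :=
  subRep N (LinearMap.ker f0) fun g w hw => by
    rw [LinearMap.mem_ker] at hw ⊢; rw [hf0, hw]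

lemma kerRep_smooth (hsm : IsSmoothRep LA (rV q V) N) :
    IsSmoothRep LA (rV q V) (kerRep f0 hf0) := fun w => by
  obtain ⟨F, hF, h⟩ := hsm w.1
  exact ⟨F, hF, fun s hs => Subtype.ext (h s hs)⟩

/-- `g n₀ - n₀` in the kernel. -/
abbrev diffEl (g : V) : kerRep f0 hf0 :=
  (⟨N.ρ g n0 - n0, by simp [hf0]⟩ : LinearMap.ker f0)

/-- The retraction onto the kernel. -/
def retr (hn0 : f0 n0 = 1) : N →ₗ[ZMod p] kerRep f0 hf0 :=
  (LinearMap.id - f0.smulRight n0).codRestrict (LinearMap.ker f0) fun n => by simp [hn0]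

lemma retr_coe (hn0 : f0 n0 = 1) (n : N) :
    ((retr f0 hf0 n0 hn0 n : kerRep f0 hf0) : LinearMap.ker f0).1 = n - f0 n • n0 := rfl

include hf0 in
lemma diff_mem (s : V) : N.ρ s n0 - n0 ∈ LinearMap.ker f0 := by simp [hf0]

lemma const_diff (hsm : IsSmoothRep LA (rV q V) N) :
    IsConst₁ LA (rV q V) (fun s => N.ρ s n0) := by
  obtain ⟨F, hF, h⟩ := hsm n0
  exact ⟨F, hF, fun g s hs => by simp [h s hs]⟩

/-- The connecting map on characters. -/
def delta (hsm : IsSmoothRep LA (rV q V) N) :
    homC (p := p) (V := V) →ₗ[ZMod p] ↥(Z2 LA (rV q V) (kerRep f0 hf0)) where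
  toFun z := ⟨fun g => (z.1 g.2) • (⟨N.ρ g.1 n0 - n0, diff_mem f0 hf0 n0 g.1⟩ : LinearMap.ker f0), by
    refine ⟨(mem_cocycles₂_iff _).2 fun g h j => Subtype.ext ?_, ?_⟩
    · change z.1 j • (N.ρ (g * h) n0 - n0) + z.1 h • (N.ρ g n0 - n0) =
        N.ρ g (z.1 j • (N.ρ h n0 - n0)) + z.1 (h * j) • (N.ρ g n0 - n0)
      simp only [z.2.1 h j, map_smul, map_sub, add_smul, smul_sub, map_mul, Module.End.mul_apply]
      abel
    · obtain ⟨F, hF, h⟩ := z.2.2
      obtain ⟨F', hF', h'⟩ := const_diff n0 hsm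
      refine ⟨F ⊔ F', (Levels.all).sup _ _ hF hF', fun g g' s s' hs hs' => Subtype.ext ?_⟩
      change z.1 (g' * s') • (N.ρ (g * s) n0 - n0) = z.1 g' • (N.ρ g n0 - n0)
      rw [h g' s' (IntermediateField.fixingSubgroup_antitone le_sup_left hs')]
      exact congrArg (fun u => z.1 g' • (u - n0))
        (h' g s (IntermediateField.fixingSubgroup_antitone le_sup_right hs))⟩
  map_add' a b := Subtype.ext (funext fun g => add_smul (a.1 g.2) (b.1 g.2)
    (⟨N.ρ g.1 n0 - n0, diff_mem f0 hf0 n0 g.1⟩ : LinearMap.ker f0))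
  map_smul' c a := Subtype.ext (funext fun g => (smul_eq_mul c (a.1 g.2)) ▸
    mul_smul c (a.1 g.2) (⟨N.ρ g.1 n0 - n0, diff_mem f0 hf0 n0 g.1⟩ : LinearMap.ker f0))

/-- The inclusion of the kernel. -/
abbrev incl : (kerRep f0 hf0) →ₗ[ZMod p] N := (LinearMap.ker f0).subtype

lemma incl_equi (g : V) (w : kerRep f0 hf0) :
    incl f0 hf0 ((kerRep f0 hf0).ρ g w) = N.ρ g (incl f0 hf0 w) := rfl

include hf0 in
lemma f0_equi (hμ : ∀ τ ∈ V, cycloChar p (rq τ) = 1) (g : V) (n : N) :
    f0 (N.ρ g n) = (muV p q V).ρ g (f0 n) := by rw [muV_ρ hμ, hf0]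

variable (hsm : IsSmoothRep LA (rV q V) N)

lemma delta_lift (z : homC (p := p) (V := V)) (s t : V) :
    ((delta f0 hf0 n0 hsm z).1 (s, t) : LinearMap.ker f0).1 =
      N.ρ s (z.1 t • n0) - z.1 (s * t) • n0 + z.1 s • n0 := by
  change z.1 t • (N.ρ s n0 - n0) = _
  rw [z.2.1, map_smul, add_smul, smul_sub]
  abel

lemma push_incl_delta (z : homC (p := p) (V := V)) :
    pushH2 (incl f0 hf0) (incl_equi f0 hf0) (H2cπ LA (rV q V) _ (delta f0 hf0 n0 hsm z)) = 0 :=
  (H2cπ_eq_zero_iff _).2 ⟨fun s => z.1 s • n0, z.2.2.comp (· • n0),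
    fun s t => delta_lift f0 hf0 n0 hsm z s t⟩

end Step

lemma subsingleton_H2c {G : Type} [Group G] {L : Levels} {r : G →* GQ} {M : Rep.{0} (ZMod p) G}
    [Subsingleton M] (x : H2c L r M) : x = 0 := by
  obtain ⟨c, rfl⟩ := Submodule.mkQ_surjective _ x
  rw [show c = 0 from Subtype.ext (funext fun _ => Subsingleton.elim _ _), map_zero]

/-- **Detection**: classes of `H²(V, N)` are detected by invariant functionals. -/
theorem detect (hV : IsLocLevel q V) (hμ : ∀ τ ∈ V, cycloChar p (rq τ) = 1)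
    [FiniteDimensional (ZMod p) N] (hN : IsPUnip N) (hsm : IsSmoothRep LA (rV q V) N)
    (x : H2c LA (rV q V) N)
    (hx : ∀ f : equiHom N (muV p q V), pushLin x f = 0) : x = 0 := by
  induction hd : finrank (ZMod p) N using Nat.strong_induction_on generalizing N with
  | _ d IH =>
    rcases subsingleton_or_nontrivial N with _ | _
    · exact subsingleton_H2c x
    obtain ⟨f0, hf0ne, hf0⟩ := exists_invariant_functional hN
    obtain ⟨n0, hn0⟩ : ∃ n0, f0 n0 = 1 := LinearMap.surjective hf0ne 1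
    have hexact : Function.Exact (incl f0 hf0) f0 := fun n =>
      ⟨fun h => ⟨⟨n, h⟩, rfl⟩, by rintro ⟨w, rfl⟩; exact w.2⟩
    obtain ⟨x', rfl⟩ := (H2c_exact (L := LA) (r := rV q V) (incl f0 hf0) (incl_equi f0 hf0)
      (C := muV p q V) f0 (f0_equi f0 hf0 hμ) Levels.hasNormal_all hsm Subtype.val_injective
      (LinearMap.surjective hf0ne) hexact x).1 (hx ⟨f0, f0_equi f0 hf0 hμ⟩)
    -- the functionals on the kernel
    obtain ⟨e⟩ : Nonempty (H2c LA (rV q V) (muV p q V) ≃ₗ[ZMod p] ZMod p) := by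
      have : FiniteDimensional (ZMod p) (H2c LA (rV q V) (muV p q V)) :=
        Module.finite_of_finrank_eq_succ (finrank_H2_muV hV)
      exact ⟨LinearEquiv.ofFinrankEq _ _ (by rw [finrank_H2_muV hV, Module.finrank_self])⟩
    have : Finite N := Module.finite_of_finite (ZMod p)
    let F' := equiHom (kerRep f0 hf0) (muV p q V)
    have : Finite (kerRep f0 hf0) := inferInstanceAs (Finite (LinearMap.ker f0))
    have : Finite (muV p q V) := inferInstanceAs (Finite (ZMod p))
    have : Finite F' := Finite.of_injective (fun f => (f.1 : kerRep f0 hf0 → muV p q V))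
      fun a b h => Subtype.ext (DFunLike.coe_injective h)
    have : FiniteDimensional (ZMod p) F' := Module.Finite.of_finite
    let c' : Module.Dual (ZMod p) F' := e.toLinearMap ∘ₗ pushLin x'
    let Φ : homC (p := p) (V := V) →ₗ[ZMod p] Module.Dual (ZMod p) F' :=
      (LinearMap.compRight (ZMod p) e.toLinearMap) ∘ₗ pushBil ∘ₗ
        H2cπ LA (rV q V) _ ∘ₗ delta f0 hf0 n0 hsm
    have hmem : c' ∈ LinearMap.range Φ := by
      rw [← Subspace.dualCoannihilator_dualAnnihilator_eq (W := LinearMap.range Φ),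
        Submodule.mem_dualAnnihilator]
      intro f' hf'
      rw [Submodule.mem_dualCoannihilator] at hf'
      let i : V → ZMod p := fun s => f'.1 (diffEl f0 hf0 n0 s)
      have hi : ∀ s t, i (s * t) = i s + i t := fun s t => by
        have h1 := f'.2 s ⟨N.ρ t n0 - n0, diff_mem f0 hf0 n0 t⟩
        rw [muV_ρ hμ] at h1
        change f'.1 _ = f'.1 _ + f'.1 _
        rw [← h1]
        refine (congrArg f'.1 (show diffEl f0 hf0 n0 (s * t) =
          diffEl f0 hf0 n0 s + (kerRep f0 hf0).ρ s (diffEl f0 hf0 n0 t) from Subtype.ext ?_)).trans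
          (map_add f'.1 _ _)
        change N.ρ (s * t) n0 - n0 = N.ρ s n0 - n0 + N.ρ s (N.ρ t n0 - n0)
        rw [map_mul, Module.End.mul_apply, map_sub]; abel
      have hic : IsConst₁ LA (rV q V) i := by
        obtain ⟨F, hF, h⟩ := const_diff (q := q) n0 hsm
        exact ⟨F, hF, fun g s hs => congrArg f'.1 (Subtype.ext (congrArg (· - n0) (h g s hs)) : diffEl f0 hf0 n0 (g * s) = diffEl f0 hf0 n0 g)⟩
      by_cases hi0 : i = 0
      · -- `f'` extends to `N`
        let f : N →ₗ[ZMod p] ZMod p := f'.1 ∘ₗ retr f0 hf0 n0 hn0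
        have hf : ∀ g n, f (N.ρ g n) = (muV p q V).ρ g (f n) := fun g n => by
          have h1 := f'.2 g (retr f0 hf0 n0 hn0 n)
          have h2 : f'.1 (diffEl f0 hf0 n0 g) = 0 := congrFun hi0 g
          rw [muV_ρ hμ] at h1 ⊢
          change f'.1 _ = f'.1 _
          have : (retr f0 hf0 n0 hn0 (N.ρ g n) : kerRep f0 hf0) =
              (kerRep f0 hf0).ρ g (retr f0 hf0 n0 hn0 n) + f0 n • diffEl f0 hf0 n0 g := by
            apply Subtype.ext
            change N.ρ g n - f0 (N.ρ g n) • n0 = N.ρ g (n - f0 n • n0) + f0 n • (N.ρ g n0 - n0)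
            rw [hf0, map_sub, map_smul, smul_sub]; abel
          rw [this, map_add, h1, map_smul, h2, smul_zero, add_zero]
        have := hx ⟨f, hf⟩
        change e (pushLin x' f') = 0
        rw [e.map_eq_zero_iff, pushLin_apply, ← this, pushLin_apply]
        symm
        refine mapH2_mapH2 _ _ _ _ _ _ _ _ _ _ _ _ (fun _ => rfl) (fun w => ?_) x'
        change f'.1 _ = f'.1 w
        congr 1
        refine Subtype.ext ((retr_coe f0 hf0 n0 hn0 _).trans ?_)
        change (w : LinearMap.ker f0).1 - f0 (w : LinearMap.ker f0).1 • n0 = _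
        rw [LinearMap.mem_ker.1 (w : LinearMap.ker f0).2, zero_smul, sub_zero]
      · exfalso
        obtain ⟨z, c, hz, hzc, hc, hne⟩ := exists_cup_ne_zero hV hμ hi hic hi0
        have := hf' (Φ ⟨z, hz, hzc⟩) ⟨_, rfl⟩
        change e (pushH2 f'.1 f'.2 (H2cπ LA (rV q V) _ (delta f0 hf0 n0 hsm ⟨z, hz, hzc⟩))) = 0 at this
        rw [e.map_eq_zero_iff] at this
        obtain ⟨w, hw, hw'⟩ := (H2cπ_eq_zero_iff _).1 this
        refine hne ((H2cπ_eq_zero_iff c).2 ⟨fun s => -(w s) - z s * i s,
          ((hw.prodMk (hzc.prodMk hic)).comp fun x => -x.1 - x.2.1 * x.2.2), fun s t => ?_⟩)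
        have h1 := hw' s t
        change f'.1 (z t • diffEl f0 hf0 n0 s) = _ at h1
        rw [map_smul, muV_ρ hμ] at h1
        rw [muV_ρ hμ, hc]
        change (z s * i t : ZMod p) = (-(w t : ZMod p) - z t * i t) -
          (-(w (s * t) : ZMod p) - z (s * t) * i (s * t)) + (-(w s : ZMod p) - z s * i s)
        change (z t * i s : ZMod p) = (w t : ZMod p) - (w (s * t) : ZMod p) + (w s : ZMod p) at h1
        rw [hz, hi]
        linear_combination (-1 : ZMod p) * h1
    obtain ⟨z, hz⟩ := hmem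
    have hlt : finrank (ZMod p) (kerRep f0 hf0) < d := by
      rw [← hd]
      refine Submodule.finrank_lt fun htop => hf0ne ?_
      exact LinearMap.ker_eq_top.1 htop
    have h0 := IH _ hlt (subRep_isPUnip hN _ _) (kerRep_smooth f0 hf0 hsm)
      (x' - H2cπ LA (rV q V) _ (delta f0 hf0 n0 hsm z)) (fun f => by
        have := LinearMap.congr_fun hz f
        change e (pushLin _ f) = e (pushLin x' f) at this
        rw [pushLin_apply, map_sub, sub_eq_zero]
        exact (e.injective this).symm) rfl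
    rw [sub_eq_zero] at h0
    rw [h0, push_incl_delta]

/-- `σ_* : H²(G_q, funRep μ V) → H²(G_q, μ)` is injective. -/
theorem sigma_injective (hp2 : p ≠ 2) (hV : IsLocLevel q V)
    (σ : funRep (muLoc p q) V →ₗ[ZMod p] muLoc p q) (hσ : ∀ f, σ f = ∑ᶠ x, f x)
    (hσe : ∀ g f, σ ((funRep (muLoc p q) V).ρ g f) = (muLoc p q).ρ g (σ f)) :
    Function.Injective (pushH2 (L := LA) (r := rq) σ hσe) := by
  have hsm : IsSmoothRep LA rq (muLoc p q) := by
    intro m
    obtain ⟨F, hF, h⟩ := exists_level_cycloChar p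
    exact ⟨F, hF, fun s hs => by
      change (muRep p).ρ (rq s) m = m
      rw [muRep_apply, h _ hs, Units.val_one, one_mul]⟩
  let E := (LinearEquiv.ofBijective _ (shapiro₂_bijective (L := LA) (r := rq) Levels.hasNormal_all hV hsm))
  have h1 : finrank (ZMod p) (H2c LA rq (funRep (muLoc p q) V)) = 1 :=
    E.finrank_eq.trans (finrank_H2_muV hV)
  have h2 : finrank (ZMod p) (H2c LA rq (muLoc p q)) = 1 :=
    (LinearEquiv.ofBijective _ (invLoc_bijective hp2 q)).finrank_eq.trans (Module.finrank_self _)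
  have := Module.finite_of_finrank_eq_succ h1
  have := Module.finite_of_finrank_eq_succ h2
  exact (LinearMap.injective_iff_surjective_of_finrank_eq_finrank (h1.trans h2.symm)).2
    (sum_pushH2_surjective hV σ hσ hσe)

/-- The composite `H²(G, funRep μ U') → H²(V, μ)` (sum over the cosets inside `V`) is onto. -/
theorem sum_res_surjective (hp2 : p ≠ 2) (hV : IsLocLevel q V)
    {U' : Subgroup (primeLocalGaloisGroup q)} [U'.FiniteIndex] (hU' : IsLocLevel q U') (hle : U' ≤ V)
    (ev : funRep (muLoc p q) U' →ₗ[ZMod p] muV p q V)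
    (hev : ∀ f, ev f = ∑ᶠ (y : primeLocalGaloisGroup q ⧸ U') (_ : ∀ g, QuotientGroup.mk g = y → g ∈ V), f y)
    (heve : ∀ (g : V) f, ev ((funRep (muLoc p q) U').ρ (g : primeLocalGaloisGroup q) f) =
      (muV p q V).ρ g (ev f)) :
    Function.Surjective (mapH2 (L := LA) (r := rq) (L' := LA) (r' := rV q V) V.subtype
      (isLevelHom_subtype _ V) ev heve) := by
  classical
  have : V.FiniteIndex := finiteIndex_of_isLocLevel hV
  let _ := Fintype.ofFinite (primeLocalGaloisGroup q ⧸ U')
  let _ := Fintype.ofFinite (primeLocalGaloisGroup q ⧸ V)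
  let pr : primeLocalGaloisGroup q ⧸ U' → primeLocalGaloisGroup q ⧸ V :=
    Quotient.map' id fun _ _ h => QuotientGroup.leftRel_apply.2 (hle (QuotientGroup.leftRel_apply.1 h))
  have hpr : ∀ (g : primeLocalGaloisGroup q) y, pr (g • y) = g • pr y := fun g y => by
    induction y using QuotientGroup.induction_on with | _ a => rfl
  let π : funRep (muLoc p q) U' →ₗ[ZMod p] funRep (muLoc p q) V :=
    { toFun := fun f x => ∑ y, if pr y = x then f y else 0
      map_add' := fun f f' => funext fun x => by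
        change (∑ y, if pr y = x then f y + f' y else 0) = _ + _
        rw [← Finset.sum_add_distrib]
        exact Finset.sum_congr rfl fun y _ => by split_ifs <;> simp
      map_smul' := fun c f => funext fun x => by
        change (∑ y, if pr y = x then c • f y else 0) = c • _
        rw [Finset.smul_sum]
        exact Finset.sum_congr rfl fun y _ => by split_ifs <;> simp }
  have hπ : ∀ g f, π ((funRep (muLoc p q) U').ρ g f) = (funRep (muLoc p q) V).ρ g (π f) := by
    intro g f
    funext x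
    change (∑ y, if pr y = x then (muLoc p q).ρ g (f (g⁻¹ • y)) else 0) =
      (muLoc p q).ρ g (∑ y, if pr y = g⁻¹ • x then f y else 0)
    rw [map_sum]
    refine Fintype.sum_equiv (MulAction.toPerm (α := primeLocalGaloisGroup q) g⁻¹) _ _ fun y => ?_
    simp only [MulAction.toPerm_apply, hpr, smul_left_cancel_iff]
    split_ifs <;> simp
  let σV : funRep (muLoc p q) V →ₗ[ZMod p] muLoc p q :=
    { toFun := fun f => ∑ x, f x
      map_add' := fun f f' => Finset.sum_add_distrib
      map_smul' := fun c f => by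
        rw [RingHom.id_apply, Finset.smul_sum]
        rfl }
  have hσV : ∀ g f, σV ((funRep (muLoc p q) V).ρ g f) = (muLoc p q).ρ g (σV f) := by
    intro g f
    change (∑ x, (muLoc p q).ρ g (f (g⁻¹ • x))) = (muLoc p q).ρ g (∑ x, f x)
    rw [map_sum]
    exact Fintype.sum_equiv (MulAction.toPerm (α := primeLocalGaloisGroup q) g⁻¹) _ _ fun y => rfl
  let σU : funRep (muLoc p q) U' →ₗ[ZMod p] muLoc p q := σV ∘ₗ π
  have hσU : ∀ g f, σU ((funRep (muLoc p q) U').ρ g f) = (muLoc p q).ρ g (σU f) := fun g f =>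
    (congrArg σV (hπ g f)).trans (hσV g _)
  have hsum : ∀ f, σU f = ∑ᶠ y, f y := fun f => by
    rw [finsum_eq_sum_of_fintype]
    change (∑ x, ∑ y, if pr y = x then f y else 0) = _
    rw [Finset.sum_comm]
    exact Finset.sum_congr rfl fun y _ => by rw [Finset.sum_ite_eq, if_pos (Finset.mem_univ _)]
  intro b
  have hμsm : IsSmoothRep LA rq (muLoc p q) := fun m => by
    obtain ⟨F, hF, h⟩ := exists_level_cycloChar p
    exact ⟨F, hF, fun s hs => by
      change (muRep p).ρ (rq s) m = m
      rw [muRep_apply, h _ hs, Units.val_one, one_mul]⟩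
  obtain ⟨y, hy⟩ := (shapiro₂_bijective (L := LA) (r := rq) Levels.hasNormal_all hV hμsm).2 b
  obtain ⟨c, hc⟩ := sum_pushH2_surjective hU' σU hsum hσU (pushH2 (L := LA) (r := rq) σV hσV y)
  have hπc : pushH2 (L := LA) (r := rq) π hπ c = y := by
    apply sigma_injective hp2 hV σV (fun f => (finsum_eq_sum_of_fintype f).symm) hσV
    rw [← hc]
    simp only [pushH2]
    exact mapH2_mapH2 (M := funRep (muLoc p q) U') (N := funRep (muLoc p q) V) (P := muLoc p q)
      (MonoidHom.id _) (isLevelHom_of_eq _ fun _ => rfl) π hπ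
      (MonoidHom.id _) (isLevelHom_of_eq _ fun _ => rfl) σV hσV
      (MonoidHom.id _) (isLevelHom_of_eq _ fun _ => rfl) σU hσU (fun _ => rfl) (fun _ => rfl) c
  refine ⟨c, ?_⟩
  rw [← hy, ← hπc]
  symm
  refine mapH2_mapH2 _ _ _ _ _ _ _ _ _ _ _ _ (fun _ => rfl) (fun f => ?_) c
  change (∑ y, if pr y = QuotientGroup.mk 1 then f y else 0) = ev f
  rw [hev, finsum_eq_sum_of_fintype]
  refine Finset.sum_congr rfl fun y _ => ?_
  induction y using QuotientGroup.induction_on with
  | _ a =>
    rw [finsum_eq_if]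
    refine if_congr ?_ rfl rfl
    change (QuotientGroup.mk a : primeLocalGaloisGroup q ⧸ V) = QuotientGroup.mk 1 ↔ _
    rw [QuotientGroup.eq, mul_one, inv_mem_iff]
    refine ⟨fun h g hg => ?_, fun h => h a rfl⟩
    have h2 : g⁻¹ * a ∈ U' := QuotientGroup.eq.1 hg
    simpa using mul_mem h (inv_mem (hle h2))

/-- A non-zero invariant functional is surjective in degree two. -/
theorem pushH2_surjective (hp2 : p ≠ 2) (hV : IsLocLevel q V)
    (hμ : ∀ τ ∈ V, cycloChar p (rq τ) = 1) (hsm : IsSmoothRep LA (rV q V) N)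
    (f0 : N →ₗ[ZMod p] ZMod p) (hf0 : ∀ g n, f0 (N.ρ g n) = f0 n) (hne : f0 ≠ 0) :
    Function.Surjective (pushH2 (L := LA) (r := rV q V) (M' := muV p q V) f0 (f0_equi f0 hf0 hμ)) := by
  classical
  obtain ⟨n0, hn0⟩ : ∃ n0, f0 n0 = 1 := LinearMap.surjective hne 1
  obtain ⟨F, hF, hFfix⟩ := hsm n0
  let U' : Subgroup (primeLocalGaloisGroup q) := V ⊓ F.fixingSubgroup.comap rq
  have hle : U' ≤ V := inf_le_left
  have hU' : IsLocLevel q U' := by
    obtain ⟨F', hF', h'⟩ := hV
    refine ⟨F' ⊔ F, (Levels.all).sup _ _ hF' hF, fun s hs => ⟨h' s ?_, ?_⟩⟩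
    · exact IntermediateField.fixingSubgroup_antitone le_sup_left hs
    · exact IntermediateField.fixingSubgroup_antitone le_sup_right hs
  have : U'.FiniteIndex := finiteIndex_of_isLocLevel hU'
  let nfun : primeLocalGaloisGroup q ⧸ U' → N :=
    Quotient.lift (fun g => if h : g ∈ V then N.ρ (⟨g, h⟩ : V) n0 else 0) (by
      intro a b hab
      have h : a⁻¹ * b ∈ U' := QuotientGroup.leftRel_apply.1 hab
      have hiff : a ∈ V ↔ b ∈ V := ⟨fun ha => by simpa using mul_mem ha h.1,
        fun hb => by simpa [mul_assoc] using mul_mem hb (inv_mem h.1)⟩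
      by_cases ha : a ∈ V
      · change (if h : a ∈ V then N.ρ (⟨a, h⟩ : V) n0 else 0) =
          if h : b ∈ V then N.ρ (⟨b, h⟩ : V) n0 else 0
        rw [dif_pos ha, dif_pos (hiff.1 ha)]
        have hh : N.ρ (⟨a⁻¹ * b, h.1⟩ : V) n0 = n0 := hFfix ⟨a⁻¹ * b, h.1⟩ h.2
        conv_lhs => rw [← hh, ← Module.End.mul_apply, ← map_mul]
        congr 2
        exact Subtype.ext (by simp)
      · change (if h : a ∈ V then N.ρ (⟨a, h⟩ : V) n0 else 0) =
          if h : b ∈ V then N.ρ (⟨b, h⟩ : V) n0 else 0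
        rw [dif_neg ha, dif_neg (fun hb => ha (hiff.2 hb))])
  let _ := Fintype.ofFinite (primeLocalGaloisGroup q ⧸ U')
  let ψ : funRep (muLoc p q) U' →ₗ[ZMod p] N :=
    { toFun := fun f => ∑ y, (f y : ZMod p) • nfun y
      map_add' := fun f f' => by
        rw [← Finset.sum_add_distrib]
        exact Finset.sum_congr rfl fun y _ => add_smul (f y : ZMod p) (f' y : ZMod p) (nfun y)
      map_smul' := fun c f => by
        rw [RingHom.id_apply, Finset.smul_sum]
        exact Finset.sum_congr rfl fun y _ => mul_smul c (f y : ZMod p) (nfun y) }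
  have hψ : ∀ (g : V) f, ψ ((funRep (muLoc p q) U').ρ (g : primeLocalGaloisGroup q) f) =
      N.ρ g (ψ f) := by
    intro g f
    change (∑ y, ((muV p q V).ρ g (f ((g : primeLocalGaloisGroup q)⁻¹ • y)) : ZMod p) • nfun y) =
      N.ρ g (∑ y, (f y : ZMod p) • nfun y)
    rw [map_sum]
    refine Fintype.sum_equiv (MulAction.toPerm (α := primeLocalGaloisGroup q)
      ((g : primeLocalGaloisGroup q)⁻¹)) _ _ fun y => ?_
    rw [MulAction.toPerm_apply, muV_ρ hμ, map_smul]
    congr 1
    induction y using QuotientGroup.induction_on with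
    | _ a =>
      change nfun (QuotientGroup.mk a) = N.ρ g (nfun (QuotientGroup.mk ((g : primeLocalGaloisGroup q)⁻¹ * a)))
      have hiff : (g : primeLocalGaloisGroup q)⁻¹ * a ∈ V ↔ a ∈ V :=
        ⟨fun h => by simpa using mul_mem g.2 h, fun h => mul_mem (inv_mem g.2) h⟩
      change (if h : a ∈ V then N.ρ (⟨a, h⟩ : V) n0 else 0) =
        N.ρ g (if h : (g : primeLocalGaloisGroup q)⁻¹ * a ∈ V then
          N.ρ (⟨_, h⟩ : V) n0 else 0)
      by_cases ha : a ∈ V
      · rw [dif_pos ha, dif_pos (hiff.2 ha), ← Module.End.mul_apply, ← map_mul]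
        congr 2
        exact Subtype.ext (by simp)
      · rw [dif_neg ha, dif_neg (fun h => ha (hiff.1 h)), map_zero]
  let ev : funRep (muLoc p q) U' →ₗ[ZMod p] muV p q V := f0 ∘ₗ ψ
  have heve : ∀ (g : V) f, ev ((funRep (muLoc p q) U').ρ (g : primeLocalGaloisGroup q) f) =
      (muV p q V).ρ g (ev f) := fun g f => by
    change f0 (ψ _) = _
    rw [hψ g f]
    exact f0_equi f0 hf0 hμ g (ψ f)
  have hev : ∀ f, ev f = ∑ᶠ (y : primeLocalGaloisGroup q ⧸ U')
      (_ : ∀ g, QuotientGroup.mk g = y → g ∈ V), f y := fun f => by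
    rw [finsum_eq_sum_of_fintype]
    change f0 (∑ y, (f y : ZMod p) • nfun y) = _
    rw [map_sum]
    refine Finset.sum_congr rfl fun y _ => ?_
    rw [finsum_eq_if]
    induction y using QuotientGroup.induction_on with
    | _ a =>
      change f0 ((f _ : ZMod p) • if h : a ∈ V then N.ρ (⟨a, h⟩ : V) n0 else 0) = _
      by_cases ha : a ∈ V
      · rw [dif_pos ha, map_smul, hf0, hn0, smul_eq_mul, mul_one, if_pos]
        intro g hg
        have h2 : g⁻¹ * a ∈ U' := QuotientGroup.eq.1 hg
        simpa using mul_mem ha (inv_mem h2.1)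
      · rw [dif_neg ha, smul_zero, map_zero, if_neg (fun h => ha (h a rfl))]
  intro b
  obtain ⟨c, hc⟩ := sum_res_surjective hp2 hV hU' hle ev hev heve b
  refine ⟨mapH2 V.subtype (isLevelHom_subtype _ V) ψ hψ c, ?_⟩
  rw [← hc]
  exact mapH2_mapH2 _ _ _ _ _ _ _ _ _ _ _ _ (fun _ => rfl) (fun _ => rfl) c

lemma finite_H2c (hV : IsLocLevel q V) (hμ : ∀ τ ∈ V, cycloChar p (rq τ) = 1)
    [FiniteDimensional (ZMod p) N] (hN : IsPUnip N) (hsm : IsSmoothRep LA (rV q V) N) :
    FiniteDimensional (ZMod p) (H2c LA (rV q V) N) := by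
  have : Finite N := Module.finite_of_finite (ZMod p)
  have : Finite (muV p q V) := inferInstanceAs (Finite (ZMod p))
  have hfin : Finite (equiHom N (muV p q V)) :=
    Finite.of_injective (fun f => (f.1 : N → muV p q V)) fun a b h => Subtype.ext (DFunLike.coe_injective h)
  have : FiniteDimensional (ZMod p) (H2c LA (rV q V) (muV p q V)) :=
    Module.finite_of_finrank_eq_succ (finrank_H2_muV hV)
  have : Finite (H2c LA (rV q V) (muV p q V)) := Module.finite_of_finite (ZMod p)
  have : Finite (H2c LA (rV q V) N) := Finite.of_injective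
    (fun x => ((pushBil x : equiHom N (muV p q V) →ₗ[ZMod p] _) : equiHom N (muV p q V) → _))
    fun x y h => sub_eq_zero.1 (detect hV hμ hN hsm _ fun f => by
      have h' := congrFun h f
      change pushH2 f.1 f.2 (x - y) = 0
      rw [map_sub]
      exact sub_eq_zero.2 h')
  exact Module.Finite.of_finite

/-- `dim Z¹ = dim H² + dim N * (1 + e)`. -/
theorem finrank_Z1_eq (hp2 : p ≠ 2) (hV : IsLocLevel q V) (hμ : ∀ τ ∈ V, cycloChar p (rq τ) = 1)
    [FiniteDimensional (ZMod p) N] (hN : IsPUnip N) (hsm : IsSmoothRep LA (rV q V) N) :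
    FiniteDimensional (ZMod p) (Z1 LA (rV q V) N) ∧
      finrank (ZMod p) (Z1 LA (rV q V) N) = finrank (ZMod p) (H2c LA (rV q V) N) +
        finrank (ZMod p) N * (1 + if (q : ℕ) = p then V.index else 0) := by
  induction hd : finrank (ZMod p) N using Nat.strong_induction_on generalizing N with
  | _ d IH =>
    rcases subsingleton_or_nontrivial N with _ | _
    · have : Subsingleton (H2c LA (rV q V) N) := ⟨fun x y => by rw [subsingleton_H2c x, subsingleton_H2c y]⟩
      have : Subsingleton (Z1 LA (rV q V) N) := ⟨fun x y => Subtype.ext (Subtype.ext (funext fun _ => Subsingleton.elim _ _))⟩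
      refine ⟨inferInstance, ?_⟩
      rw [← hd, Module.finrank_zero_of_subsingleton, Module.finrank_zero_of_subsingleton,
        Module.finrank_zero_of_subsingleton, zero_mul, add_zero]
    obtain ⟨f0, hf0ne, hf0⟩ := exists_invariant_functional hN
    obtain ⟨n0, hn0⟩ : ∃ n0, f0 n0 = 1 := LinearMap.surjective hf0ne 1
    have hdim : finrank (ZMod p) (kerRep f0 hf0) + 1 = d := by
      have h1 := LinearMap.finrank_range_add_finrank_ker f0
      rw [LinearMap.range_eq_top.2 (LinearMap.surjective hf0ne), finrank_top, Module.finrank_self] at h1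
      rw [← hd, ← h1, add_comm]
      rfl
    have hN' : IsPUnip (kerRep f0 hf0) := subRep_isPUnip hN _ _
    have hsm' := kerRep_smooth f0 hf0 hsm
    obtain ⟨hfin', heq'⟩ := IH _ (by omega) hN' hsm' rfl
    obtain ⟨hhom, hhomdim⟩ := finrank_homC (p := p) hV hμ
    have := finite_H2c hV hμ hN hsm
    have := finite_H2c hV hμ hN' hsm'
    -- the six maps
    let a1 : Z1 LA (rV q V) (kerRep f0 hf0) →ₗ[ZMod p] Z1 LA (rV q V) N :=
      { toFun := fun z => ⟨⟨fun s => incl f0 hf0 (z.1 s), (mem_cocycles₁_iff _).2 fun s t => by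
          have h := (mem_cocycles₁_iff _).1 z.1.2 s t
          simp only [cocycles₁.val_eq_coe] at h
          change incl f0 hf0 (z.1 (s * t)) = _
          rw [h, map_add]; rfl⟩,
          show IsConst₁ LA (rV q V) ((incl f0 hf0 : kerRep f0 hf0 → N) ∘ (z.1 : V → kerRep f0 hf0)) from
            IsConst₁.comp z.2 _⟩
        map_add' := fun _ _ => rfl
        map_smul' := fun _ _ => rfl }
    let a2 : Z1 LA (rV q V) N →ₗ[ZMod p] homC (p := p) (V := V) :=
      { toFun := fun z => ⟨fun s => f0 (z.1 s), fun s t => by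
          have h := (mem_cocycles₁_iff _).1 z.1.2 s t
          simp only [cocycles₁.val_eq_coe] at h
          change f0 (z.1 (s * t)) = f0 (z.1 s) + f0 (z.1 t)
          rw [h, map_add, hf0, add_comm],
          show IsConst₁ LA (rV q V) ((f0 : N → ZMod p) ∘ (z.1 : V → N)) from IsConst₁.comp z.2 _⟩
        map_add' := fun _ _ => Subtype.ext (funext fun _ => map_add f0 _ _)
        map_smul' := fun _ _ => Subtype.ext (funext fun _ => map_smul f0 _ _) }
    let a3 := H2cπ LA (rV q V) (kerRep f0 hf0) ∘ₗ delta f0 hf0 n0 hsm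
    let a4 := pushH2 (L := LA) (r := rV q V) (incl f0 hf0) (incl_equi f0 hf0)
    let a5 := pushH2 (L := LA) (r := rV q V) (M' := muV p q V) f0 (f0_equi f0 hf0 hμ)
    have k1 : LinearMap.ker a1 = ⊥ := LinearMap.ker_eq_bot'.2 fun z hz => Subtype.ext (Subtype.ext
      (funext fun s => Subtype.ext (congrArg (fun w : Z1 LA (rV q V) N => w.1 s) hz)))
    have k2 : LinearMap.ker a2 = LinearMap.range a1 := by
      ext z
      constructor
      · intro hz
        have hz' : ∀ s, f0 (z.1 s) = 0 := fun s => congrFun (congrArg Subtype.val (LinearMap.mem_ker.1 hz)) s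
        refine ⟨⟨⟨fun s => (⟨z.1 s, hz' s⟩ : LinearMap.ker f0), (mem_cocycles₁_iff _).2 fun s t =>
          Subtype.ext ((mem_cocycles₁_iff _).1 z.1.2 s t)⟩, ?_⟩, rfl⟩
        obtain ⟨F, hF, h⟩ := z.2
        exact ⟨F, hF, fun g s hs => Subtype.ext (h g s hs)⟩
      · rintro ⟨w, rfl⟩
        exact Subtype.ext (funext fun s => (w.1 s : LinearMap.ker f0).2)
    have k3 : LinearMap.ker a3 = LinearMap.range a2 := by
      ext z
      constructor
      · intro hz
        obtain ⟨w, hw, hw'⟩ := (H2cπ_eq_zero_iff _).1 (LinearMap.mem_ker.1 hz)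
        refine ⟨⟨⟨fun s => z.1 s • n0 - incl f0 hf0 (w s), (mem_cocycles₁_def _).2 fun s t => ?_⟩,
          (z.2.2.prodMk hw).comp fun x => x.1 • n0 - incl f0 hf0 x.2⟩, ?_⟩
        · have h1 := congrArg (incl f0 hf0) (hw' s t)
          rw [map_add, map_sub, incl_equi] at h1
          have h2 : incl f0 hf0 ((delta f0 hf0 n0 hsm z).1 (s, t)) = _ := delta_lift f0 hf0 n0 hsm z s t
          rw [h1] at h2
          rw [map_sub, ← sub_eq_zero.2 h2.symm]
          abel
        · refine Subtype.ext (funext fun s => ?_)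
          change f0 (z.1 s • n0 - incl f0 hf0 (w s)) = z.1 s
          rw [map_sub, map_smul, hn0, show f0 (incl f0 hf0 (w s)) = 0 from (w s : LinearMap.ker f0).2]
          simp
      · rintro ⟨w, rfl⟩
        refine LinearMap.mem_ker.2 ((H2cπ_eq_zero_iff _).2
          ⟨fun s => -(retr f0 hf0 n0 hn0 (w.1 s)),
            IsConst₁.comp (f := (w.1 : V → N)) w.2 (fun n => -(retr f0 hf0 n0 hn0 n)), fun s t => ?_⟩)
        apply Subtype.ext
        refine (delta_lift f0 hf0 n0 hsm (a2 w) s t).trans ?_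
        change N.ρ s (f0 (w.1 t) • n0) - f0 (w.1 (s * t)) • n0 + f0 (w.1 s) • n0 =
          N.ρ s (-(w.1 t - f0 (w.1 t) • n0)) - (-(w.1 (s * t) - f0 (w.1 (s * t)) • n0)) +
            (-(w.1 s - f0 (w.1 s) • n0))
        have e := (mem_cocycles₁_def _).1 w.1.2 s t
        simp only [map_neg, map_sub]
        rw [← sub_eq_zero]
        refine Eq.trans ?_ e
        abel
    have k4 : LinearMap.ker a4 = LinearMap.range a3 := by
      ext x
      constructor
      · intro hx
        obtain ⟨c, rfl⟩ := Submodule.mkQ_surjective _ x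
        obtain ⟨z, hz, hzc, hz'⟩ := H2c_ker_eq_delta (L := LA) (r := rV q V) (incl f0 hf0)
          (incl_equi f0 hf0) (C := muV p q V) f0 (f0_equi f0 hf0 hμ) Levels.hasNormal_all hsm
          Subtype.val_injective (LinearMap.surjective hf0ne)
          (fun n => ⟨fun h => ⟨⟨n, h⟩, rfl⟩, by rintro ⟨w, rfl⟩; exact w.2⟩) c hx
        refine ⟨⟨fun s => f0 (z s), fun s t => ?_, hz.comp f0⟩, ?_⟩
        · have := hzc s t
          rw [muV_ρ hμ] at this
          change f0 (z (s * t)) = f0 (z s) + f0 (z t)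
          rw [this, add_comm]
        · refine (H2cπ_eq_iff _ _).2 ⟨fun s => -(retr f0 hf0 n0 hn0 (z s)), IsConst₁.comp hz (fun n => -(retr f0 hf0 n0 hn0 n)), fun s t => ?_⟩
          apply Subtype.ext
          refine (delta_lift f0 hf0 n0 hsm _ s t).trans ?_
          change _ = (c.1 (s, t) : LinearMap.ker f0).1 +
            (N.ρ s (-(z t - f0 (z t) • n0)) - (-(z (s * t) - f0 (z (s * t)) • n0)) +
              (-(z s - f0 (z s) • n0)))
          rw [show (c.1 (s, t) : LinearMap.ker f0).1 = _ from hz' s t]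
          simp only [map_neg, map_sub]
          abel
      · rintro ⟨z, rfl⟩
        exact push_incl_delta f0 hf0 n0 hsm z
    have k5 : LinearMap.ker a5 = LinearMap.range a4 :=
      LinearMap.exact_iff.1 (H2c_exact (L := LA) (r := rV q V) (incl f0 hf0) (incl_equi f0 hf0)
        (C := muV p q V) f0 (f0_equi f0 hf0 hμ) Levels.hasNormal_all hsm Subtype.val_injective
        (LinearMap.surjective hf0ne)
        (fun n => ⟨fun h => ⟨⟨n, h⟩, rfl⟩, by rintro ⟨w, rfl⟩; exact w.2⟩))
    have k6 : LinearMap.range a5 = ⊤ :=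
      LinearMap.range_eq_top.2 (pushH2_surjective hp2 hV hμ hsm f0 hf0 hf0ne)
    have hfinN : FiniteDimensional (ZMod p) (Z1 LA (rV q V) N) := by
      refine ⟨Submodule.fg_of_fg_map_of_fg_inf_ker a2 (IsNoetherian.noetherian _) ?_⟩
      rw [top_inf_eq, k2, LinearMap.range_eq_map]
      exact (Module.Finite.fg_top).map _
    refine ⟨hfinN, ?_⟩
    have e1 := LinearMap.finrank_range_add_finrank_ker a1
    have e2 := LinearMap.finrank_range_add_finrank_ker a2
    have e3 := LinearMap.finrank_range_add_finrank_ker a3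
    have e4 := LinearMap.finrank_range_add_finrank_ker a4
    have e5 := LinearMap.finrank_range_add_finrank_ker a5
    rw [k1, finrank_bot] at e1
    rw [k2] at e2
    rw [k3, hhomdim] at e3
    rw [k4] at e4
    rw [k5, k6, finrank_top, finrank_H2_muV hV] at e5
    obtain ⟨e, he⟩ : ∃ e, (if (q : ℕ) = p then V.index else 0) = e := ⟨_, rfl⟩
    rw [he] at e3 heq' ⊢
    have : d * (1 + e) = finrank (ZMod p) (kerRep f0 hf0) * (1 + e) + (1 + e) := by
      rw [← hdim, add_mul, one_mul]
    omega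

end Fermat.Agent.CFT.LocalDual
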